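import Fermat.Agent.Jac.DictAux.ToData

/-!
# Triviality along the marked section, and the trivial sheaf

`rigTriv_toData_iff` compares triviality of a sheaf and of its line data along the section.
-/

set_option autoImplicit false

universe u

open CategoryTheory CategoryTheory.Limits AlgebraicGeometry AlgebraicGeometry.RelPicard
  NeronModelInfra Opposite TopologicalSpace
open scoped TensorProduct

noncomputable section

namespace Fermat.Agent.Jac

theorem linearEquiv_of_semilinear_surjective {R A M N N' : Type u} [CommRing R] [CommRing A]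
    [AddCommGroup M] [Module R M] [Module.Invertible R M] [AddCommGroup N] [Module A N]
    [Module.Invertible A N] [AddCommGroup N'] [Module A N'] [Module.Invertible A N']
    {φ : R →+* A} (f : M →ₛₗ[φ] N) (g : M →ₛₗ[φ] N') (hf : Function.Surjective f)
    (hg : Function.Surjective g) : Nonempty (N ≃ₗ[A] N') := by
  algebraize [φ]
  have key : ∀ (P : Type u) [AddCommGroup P] [Module A P] [Module.Invertible A P]
      (h : M →ₛₗ[φ] P), Function.Surjective h → Nonempty ((A ⊗[R] M) ≃ₗ[A] P) := by
    intro P _ _ _ h hh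
    let : Module R P := Module.compHom P φ
    have : IsScalarTower R A P := .of_algebraMap_smul fun _ _ => rfl
    let h' : M →ₗ[R] P := { toFun := h, map_add' := map_add h, map_smul' := h.map_smulₛₗ }
    have hs : Function.Surjective (h'.liftBaseChange A) := fun y => by
      obtain ⟨x, rfl⟩ := hh y
      exact ⟨1 ⊗ₜ x, by simp [h']⟩
    exact ⟨LinearEquiv.ofBijective _ (Module.Invertible.bijective_of_surjective hs)⟩
  obtain ⟨a⟩ := key N f hf
  obtain ⟨b⟩ := key N' g hg
  exact ⟨a.symm.trans b⟩

theorem surjective_of_span {R A M N : Type u} [CommRing R] [CommRing A] [AddCommGroup M]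
    [Module R M] [AddCommGroup N] [Module A N] {φ : R →+* A} (hφ : Function.Surjective φ)
    (f : M →ₛₗ[φ] N) (h : Submodule.span A (Set.range f) = ⊤) : Function.Surjective f := by
  intro y
  have hy : y ∈ Submodule.span A (Set.range f) := h ▸ Submodule.mem_top
  induction hy using Submodule.span_induction with
  | mem _ hx => exact hx
  | zero => exact ⟨0, map_zero f⟩
  | add _ _ _ _ h1 h2 =>
    obtain ⟨a, rfl⟩ := h1
    obtain ⟨b, rfl⟩ := h2
    exact ⟨a + b, map_add f a b⟩
  | smul r _ _ h1 =>
    obtain ⟨a, rfl⟩ := h1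
    obtain ⟨r, rfl⟩ := hφ r
    exact ⟨r • a, f.map_smulₛₗ r a⟩

section

variable {X : Scheme.{u}} {R : CommRingCat.{u}} (j : Spec R ⟶ X) [IsOpenImmersion j]

/-- The unit section of the trivial sheaf over an open affine. -/
def secOne : secOn j (SheafOfModules.unit X.ringCatSheaf) :=
  (Scheme.Modules.restrictAppIso j (SheafOfModules.unit X.ringCatSheaf) ⊤).inv
    (1 : Γ(X, j ''ᵁ ⊤))

theorem hom_secOne : (Scheme.Modules.restrictAppIso j (SheafOfModules.unit X.ringCatSheaf) ⊤).hom
    (secOne j) = (1 : Γ(X, j ''ᵁ ⊤)) :=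
  Iso.inv_hom_id_apply (Scheme.Modules.restrictAppIso j (SheafOfModules.unit X.ringCatSheaf) ⊤) _

theorem bijective_toSpanSingleton_secOne :
    Function.Bijective (LinearMap.toSpanSingleton R _ (secOne j)) := by
  let e := (Scheme.Modules.restrictAppIso j (SheafOfModules.unit X.ringCatSheaf)
    ⊤).addCommGroupIsoToAddEquiv
  have hc : Function.Bijective (coordHom j) := by
    have : IsIso (coordHom j) := by rw [coordHom]; infer_instance
    exact ConcreteCategory.bijective_of_isIso _
  have he : (e ∘ LinearMap.toSpanSingleton R _ (secOne j)) = (coordHom j : R → Γ(X, j ''ᵁ ⊤)) := by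
    funext r
    refine (secOn_smul j _ r (secOne j)).trans ?_
    erw [hom_secOne]
    exact mul_one ((coordHom j).hom r)
  exact (Function.Bijective.of_comp_iff' e.bijective _).mp (he ▸ hc)

theorem secRes_secOne {R' : CommRingCat.{u}} (j' : Spec R' ⟶ X) [IsOpenImmersion j'] (φ : R ⟶ R')
    (hj : Spec.map φ ≫ j = j') :
    secRes j j' φ hj (SheafOfModules.unit X.ringCatSheaf) (secOne j) = secOne j' := by
  apply (Scheme.Modules.restrictAppIso j' (SheafOfModules.unit X.ringCatSheaf)
    ⊤).addCommGroupIsoToAddEquiv.injective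
  refine (secRes_apply j j' φ hj _ (secOne j)).trans ?_
  refine Eq.trans ?_ (hom_secOne j').symm
  refine (congrArg _ (hom_secOne j)).trans ?_
  exact map_one (X.presheaf.map (homOfLE (image_le_of_fac j j' φ hj)).op).hom

/-- The sections of the trivial sheaf over an open affine. -/
def unitEquiv : R ≃ₗ[R] secOn j (SheafOfModules.unit X.ringCatSheaf) :=
  LinearEquiv.ofBijective _ (bijective_toSpanSingleton_secOne j)

theorem secRes_unitEquiv {R' : CommRingCat.{u}} (j' : Spec R' ⟶ X) [IsOpenImmersion j']
    (φ : R ⟶ R') (hj : Spec.map φ ≫ j = j') (r : R) :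
    secRes j j' φ hj _ (unitEquiv j r) = unitEquiv j' (φ.hom r) :=
  ((secRes j j' φ hj _).map_smulₛₗ r (secOne j)).trans
    (congrArg (φ.hom r • ·) (secRes_secOne j j' φ hj))

end

section

variable {R : CommRingCat.{u}} (N : (Spec R).Modules)

theorem linearEquiv_self_of_iso_unit
    (i : N ≅ SheafOfModules.unit (Spec R).ringCatSheaf) :
    Nonempty (secOn (𝟙 (Spec R)) N ≃ₗ[R] R) :=
  ⟨((moduleSpecΓFunctor (R := R)).mapIso
      ((Scheme.Modules.restrictFunctorId).app N ≪≫ i ≪≫ tildeSelf.symm) ≪≫
    (tilde.isoTop (ModuleCat.of R R)).symm).toLinearEquiv⟩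

theorem iso_unit_of_linearEquiv_self (hN : Scheme.Modules.IsInvertible N)
    (E : secOn (𝟙 (Spec R)) N ≃ₗ[R] R) :
    Nonempty (N ≅ SheafOfModules.unit (Spec R).ringCatSheaf) := by
  have : IsIso (N.restrict (𝟙 (Spec R))).fromTildeΓ :=
    isIso_fromTilde_of_isInvertible _ (isInvertible_restrict _ hN)
  have : IsIso (tilde (ModuleCat.of R R)).fromTildeΓ := isIso_fromTilde_tilde _
  obtain ⟨a⟩ := nonempty_iso_of_linearEquiv
    (P := N.restrict (𝟙 (Spec R))) (N := tilde (ModuleCat.of R R))
    (E.trans (tilde.isoTop (ModuleCat.of R R)).toLinearEquiv)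
  exact ⟨((Scheme.Modules.restrictFunctorId).app N).symm ≪≫ a ≪≫ tildeSelf⟩

theorem exists_surjective_iff_iso_unit {X : Scheme.{u}} {R A : CommRingCat.{u}} (σ : Spec A ⟶ X)
    (j : Spec R ⟶ X) [IsOpenImmersion j] (φ : R ⟶ A) (hφ : Function.Surjective φ.hom)
    (hσ : 𝟙 (Spec A) ≫ σ = Spec.map φ ≫ j) (L : X.Modules) (hL : Scheme.Modules.IsInvertible L) :
    (∃ l : secOn j L →ₛₗ[φ.hom] A, Function.Surjective l) ↔
      Nonempty ((Scheme.Modules.pullback σ).obj L ≅ SheafOfModules.unit (Spec A).ringCatSheaf) := by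
  let N := (Scheme.Modules.pullback σ).obj L
  have hN : Scheme.Modules.IsInvertible N := hL.pullback σ
  have := GeoCharts.isIso_fromTilde_restrict hL j
  have := GeoCharts.isIso_fromTilde_restrict hN (𝟙 (Spec A))
  let f : secOn j L →ₛₗ[φ.hom] secOn (𝟙 (Spec A)) N :=
    secMap σ j (𝟙 (Spec A)) φ hσ ((Scheme.Modules.pullbackPushforwardAdjunction σ).unit.app L)
  have hf : Function.Surjective f :=
    surjective_of_span hφ f (span_secMap_unit σ j (𝟙 (Spec A)) φ hσ)
  have := GeoCharts.invertible_secOn hL j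
  have := GeoCharts.invertible_secOn hN (𝟙 (Spec A))
  constructor
  · rintro ⟨l, hl⟩
    obtain ⟨E⟩ := linearEquiv_of_semilinear_surjective f l hf hl
    exact iso_unit_of_linearEquiv_self N hN E
  · rintro ⟨i⟩
    obtain ⟨E⟩ := linearEquiv_self_of_iso_unit N i
    exact ⟨E.toLinearMap.comp f, E.surjective.comp hf⟩

end

namespace GeoCharts

variable {k : Type u} [Field k] {C : Scheme.{u}} {c : C ⟶ Spec (CommRingCat.of k)}
variable (A : Type u) [CommRing A] [Algebra k A]
variable {m : CurveModel k} {ε : SchemeHomOver (𝟙 (Spec (CommRingCat.of k))) c}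
  (G : m.Geo c ε)

/-- The trivial sheaf has trivial line data. -/
theorem nonempty_iso_toData_unit :
    Nonempty (LineData.Iso (LineData.trivialData : LineData m A)
      (toData A G _ (Scheme.Modules.isInvertible_unit (pullback c (specTo k A))))) :=
  ⟨{ e0 := unitEquiv (j0 A G)
     e1 := unitEquiv (j1 A G)
     e01 := unitEquiv (j01 A G)
     comm0 := secRes_unitEquiv (j0 A G) (j01 A G) _ (fac0 A G)
     comm1 := secRes_unitEquiv (j1 A G) (j01 A G) _ (fac1 A G) }⟩

theorem surjective_epsA : Function.Surjective (m.epsA A) :=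
  fun a => ⟨a ⊗ₜ 1, by simp [CurveModel.epsA]⟩

/-- Line data are trivial along the marked section iff the sheaf is. -/
theorem rigTriv_toData_iff (L : (pullback c (specTo k A)).Modules)
    (hL : Scheme.Modules.IsInvertible L) :
    (toData A G L hL).RigTriv ↔
      Nonempty ((Scheme.Modules.pullback (rigSection c (specTo k A) ε)).obj L ≅
        SheafOfModules.unit (Spec (CommRingCat.of A)).ringCatSheaf) :=
  exists_surjective_iff_iso_unit (rigSection c (specTo k A) ε) (j1 A G)
    (CommRingCat.ofHom (m.epsA A)) (surjective_epsA A)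
    ((Category.id_comp _).trans (rigSection_eq A G)) L hL

end GeoCharts

end Fermat.Agent.Jac
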