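import Mathlib

/-!
# A module that is locally free of rank one is invertible

The criterion is `invertible_of_isLocalizedModule_away`.
-/

set_option autoImplicit false

universe u v

open scoped TensorProduct

namespace Fermat.Agent.Jac

variable {R : Type u} [CommRing R] {M : Type v} [AddCommGroup M] [Module R M]

theorem eq_zero_of_pow_smul_cover (s : Set R) (hs : Ideal.span s = ⊤) (z : M)
    (h : ∀ r ∈ s, ∃ n : ℕ, r ^ n • z = 0) : z = 0 := by
  let J : Ideal R := LinearMap.ker (LinearMap.toSpanSingleton R M z)
  have hJ : s ⊆ J.radical := fun r hr => by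
    obtain ⟨n, hn⟩ := h r hr
    exact ⟨n, by simpa [J] using hn⟩
  have h1 : (1 : R) ∈ J := by
    rw [← Ideal.eq_top_iff_one, ← Ideal.radical_eq_top, eq_top_iff, ← hs, Ideal.span_le]
    exact hJ
  simpa [J] using h1

theorem invertible_of_smul_comm
    (hcomm : ∀ (g : M →ₗ[R] R) (x y : M), g x • y = g y • x)
    (htop : Ideal.span (Set.range fun p : (M →ₗ[R] R) × M => p.1 p.2) = ⊤) :
    Module.Invertible R M := by
  obtain ⟨c, hc⟩ := (Finsupp.mem_ideal_span_range_iff_exists_finsupp).mp
    ((Ideal.eq_top_iff_one _).mp htop)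
  let E : Module.Dual R M ⊗[R] M := c.sum fun p a => a • (p.1 ⊗ₜ[R] p.2)
  have hE : contractLeft R M E = 1 := by
    rw [← hc]
    simp [E, Finsupp.sum]
  have key : ∀ x : Module.Dual R M ⊗[R] M, x = contractLeft R M x • E := by
    intro x
    induction x using TensorProduct.induction_on with
    | zero => simp
    | add a b ha hb => rw [map_add, add_smul, ← ha, ← hb]
    | tmul g y =>
      have h1 : (g ⊗ₜ[R] y) = c.sum fun p a => a • ((p.1 p.2) • (g ⊗ₜ[R] y)) := by
        conv_lhs => rw [← one_smul R (g ⊗ₜ[R] y), ← hc]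
        simp [Finsupp.sum, Finset.sum_smul, mul_smul]
      refine h1.trans ?_
      simp only [contractLeft_apply, E, Finsupp.sum, Finset.smul_sum]
      refine Finset.sum_congr rfl fun p _ => ?_
      rw [smul_comm (g y) (c p)]
      congr 1
      have h2 : p.1 p.2 • g = g p.2 • p.1 := by
        ext z
        have := congrArg g (hcomm p.1 p.2 z)
        simp only [map_smul, smul_eq_mul] at this
        simp only [LinearMap.smul_apply, smul_eq_mul]
        rw [this, mul_comm]
      calc p.1 p.2 • (g ⊗ₜ[R] y) = (p.1 p.2 • g) ⊗ₜ[R] y := (TensorProduct.smul_tmul' _ _ _)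
        _ = p.1 ⊗ₜ[R] (g p.2 • y) := by rw [h2, TensorProduct.smul_tmul]
        _ = g y • (p.1 ⊗ₜ[R] p.2) := by rw [hcomm g p.2 y, TensorProduct.tmul_smul]
  refine ⟨⟨fun a b hab => ?_, fun r => ⟨r • E, by rw [map_smul, hE, smul_eq_mul, mul_one]⟩⟩⟩
  rw [key a, key b, hab]

/-- A module free of rank one on a cover by basic opens is invertible. -/
theorem invertible_of_isLocalizedModule_away (s : Set R) (hs : Ideal.span s = ⊤)
    (h : ∀ r ∈ s, ∃ l : M →ₗ[R] Localization.Away r, IsLocalizedModule (Submonoid.powers r) l) :
    Module.Invertible R M := by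
  choose l hl using h
  have hfp : Module.FinitePresentation R M := by
    have := fun g : s => hl g.1 g.2
    exact Module.FinitePresentation.of_localizationSpan' s hs
      (Rₚ := fun g => Localization.Away g.1) (fun g => l g.1 g.2)
      (fun g => Module.finitePresentation_of_projective _ _)
  refine invertible_of_smul_comm (fun g x y => ?_) ?_
  · refine sub_eq_zero.mp (eq_zero_of_pow_smul_cover s hs _ fun r hr => ?_)
    have := hl r hr
    let g' : Localization.Away r →ₗ[Localization.Away r] Localization.Away r :=
      LinearMap.extendScalarsOfIsLocalization (Submonoid.powers r) (Localization.Away r)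
        (IsLocalizedModule.map (Submonoid.powers r) (l r hr)
          (Algebra.linearMap R (Localization.Away r)) g)
    have hg : ∀ z, algebraMap R (Localization.Away r) (g z) = g' 1 * l r hr z := fun z => by
      rw [mul_comm, ← smul_eq_mul, ← g'.map_smul, smul_eq_mul, mul_one]
      exact (IsLocalizedModule.map_apply (Submonoid.powers r) (l r hr)
        (Algebra.linearMap R (Localization.Away r)) g z).symm
    have e : l r hr (g x • y) = l r hr (g y • x) := by
      rw [map_smul, map_smul, Algebra.smul_def, Algebra.smul_def, hg, hg]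
      ring
    obtain ⟨⟨_, n, rfl⟩, hn⟩ :=
      (IsLocalizedModule.eq_iff_exists (S := Submonoid.powers r) (f := l r hr)).mp e
    refine ⟨n, ?_⟩
    rw [smul_sub, sub_eq_zero]
    exact hn
  · rw [eq_top_iff, ← hs, Ideal.span_le]
    suffices h : ∀ r ∈ s, r ∈ (Ideal.span (Set.range fun p : (M →ₗ[R] R) × M => p.1 p.2)).radical by
      intro r _
      have h1 := Ideal.span_le.mpr h
      rw [hs, top_le_iff, Ideal.radical_eq_top] at h1
      rw [h1]
      trivial
    intro r hr
    have := hl r hr
    obtain ⟨f, ⟨_, n, rfl⟩, hf⟩ := Module.FinitePresentation.exists_lift_of_isLocalizedModule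
      (Submonoid.powers r) (Algebra.linearMap R (Localization.Away r)) (l r hr)
    obtain ⟨⟨z, ⟨_, k, rfl⟩⟩, hz⟩ :=
      IsLocalizedModule.surj (Submonoid.powers r) (l r hr) (1 : Localization.Away r)
    have e : algebraMap R (Localization.Away r) (f z) =
        algebraMap R (Localization.Away r) (r ^ n * r ^ k) := by
      have h2 := LinearMap.congr_fun hf z
      rw [LinearMap.comp_apply, Algebra.linearMap_apply, LinearMap.smul_apply, ← hz] at h2
      simpa [Submonoid.smul_def, Algebra.smul_def, map_mul] using h2
    obtain ⟨⟨_, j, rfl⟩, hj⟩ := (IsLocalization.eq_iff_exists (Submonoid.powers r) _).mp e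
    refine ⟨j + (n + k), Ideal.subset_span ⟨(f, r ^ j • z), ?_⟩⟩
    simpa [map_smul, pow_add, mul_assoc] using hj

end Fermat.Agent.Jac
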