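import Fermat.Agent.Jac.DictAux.Quasicoherent
import Fermat.Agent.Jac.DictAux.Criterion

/-!
# Invertible sheaves on an affine scheme and invertible modules

The two constructions `tilde` and global sections preserve invertibility.
-/

set_option autoImplicit false

universe u

open CategoryTheory AlgebraicGeometry Opposite TopologicalSpace

noncomputable section

namespace Fermat.Agent.Jac

theorem isInvertible_of_cover {X : Scheme.{u}} {L : X.Modules}
    (h : ∀ x : X, ∃ (Y : Scheme.{u}) (j : Y ⟶ X) (_ : IsOpenImmersion j),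
      x ∈ Set.range j.base ∧ Scheme.Modules.IsInvertible (L.restrict j)) :
    Scheme.Modules.IsInvertible L := by
  refine ⟨fun x => ?_⟩
  obtain ⟨Y, j, _, ⟨y, rfl⟩, hY⟩ := h x
  obtain ⟨U, hy, ⟨e⟩⟩ := exists_restrict_iso_unit hY y
  refine ⟨(U.ι ≫ j).opensRange, ⟨⟨y, hy⟩, rfl⟩, ⟨?_⟩⟩
  refine ((Scheme.Modules.restrictFunctorIsoPullback _).app L).symm ≪≫
    (Scheme.Modules.restrictFunctorCongr
      (Scheme.Hom.isoOpensRange_inv_comp (U.ι ≫ j)).symm).app L ≪≫
    (Scheme.Modules.restrictFunctorComp (U.ι ≫ j).isoOpensRange.inv (U.ι ≫ j)).app L ≪≫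
    (Scheme.Modules.restrictFunctor (U.ι ≫ j).isoOpensRange.inv).mapIso
      ((Scheme.Modules.restrictFunctorComp U.ι j).app L ≪≫ e) ≪≫
    Scheme.Modules.restrictUnitIso _

/-- A trivialisation on an open set restricts to open immersions landing in it. -/
theorem restrict_iso_unit_of_range_le {X Y : Scheme.{u}} {L : X.Modules} (U : X.Opens)
    (e : L.restrict U.ι ≅ SheafOfModules.unit U.toScheme.ringCatSheaf) (j : Y ⟶ X)
    [IsOpenImmersion j] (hr : Set.range j.base ⊆ U) :
    Nonempty (L.restrict j ≅ SheafOfModules.unit Y.ringCatSheaf) := by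
  have hr' : Set.range j.base ⊆ Set.range U.ι.base := by rwa [Scheme.Opens.range_ι]
  exact ⟨(Scheme.Modules.restrictFunctorCongr
      (IsOpenImmersion.lift_fac U.ι j hr').symm).app L ≪≫
    (Scheme.Modules.restrictFunctorComp (IsOpenImmersion.lift U.ι j hr') U.ι).app L ≪≫
    (Scheme.Modules.restrictFunctor (IsOpenImmersion.lift U.ι j hr')).mapIso e ≪≫
    Scheme.Modules.restrictUnitIso (IsOpenImmersion.lift U.ι j hr')⟩

variable {R : CommRingCat.{u}}

/-- The inclusion of a basic open set. -/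
abbrev locι (R S : CommRingCat.{u}) [Algebra R S] : Spec S ⟶ Spec R :=
  Spec.map (CommRingCat.ofHom (algebraMap R S))

theorem image_locι {S : CommRingCat.{u}} [Algebra R S] (r : R) [IsLocalization.Away r S]
    [IsOpenImmersion (locι R S)] :
    locι R S ''ᵁ ⊤ = PrimeSpectrum.basicOpen r :=
  Opens.ext (Set.image_univ.trans (PrimeSpectrum.localization_away_comap_range S r))

/-- Restriction of global sections, as a linear map. -/
def resTop (L : (Spec R).Modules) (U : (Spec R).Opens) : Γ(L, ⊤) →ₗ[R] Γ(L, U) :=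
  ((modulesSpecToSheaf.obj L).obj.map (homOfLE le_top).op).hom

theorem isLocalizedModule_resTop (L : (Spec R).Modules) [IsIso L.fromTildeΓ] (r : R)
    (U : (Spec R).Opens) (hU : U = PrimeSpectrum.basicOpen r) :
    IsLocalizedModule (Submonoid.powers r) (resTop L U) := by
  subst hU
  exact (isIso_fromTildeΓ_iff_isLocalizing L).mp ‹_› r

theorem restrictAppIso_inv_smul {S : CommRingCat.{u}} (f : R ⟶ S) [IsOpenImmersion (Spec.map f)]
    (L : (Spec R).Modules) (a : R) (x : Γ(L, Spec.map f ''ᵁ ⊤)) :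
    (L.restrictAppIso (Spec.map f) ⊤).inv (a • x) =
      f.hom a • (L.restrictAppIso (Spec.map f) ⊤).inv x := by
  apply (L.restrictAppIso (Spec.map f) ⊤).addCommGroupIsoToAddEquiv.injective
  refine (Iso.inv_hom_id_apply (L.restrictAppIso (Spec.map f) ⊤) _).trans ?_
  refine Eq.trans ?_ (Scheme.Modules.restrictAppIso_smul_Spec f a _).symm
  exact (congrArg (a • ·) (Iso.inv_hom_id_apply (L.restrictAppIso (Spec.map f) ⊤) x)).symm

variable {S : CommRingCat.{u}} [Algebra R S] (r : R) [IsLocalization.Away r S]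
  [IsOpenImmersion (locι R S)]

/-- The localisation map given by a trivialisation on a basic open set. -/
theorem exists_isLocalizedModule_of_iso (L : (Spec R).Modules) [IsIso L.fromTildeΓ]
    (e : L.restrict (locι R S) ≅ SheafOfModules.unit _) :
    ∃ l : Γ(L, ⊤) →ₗ[R] S, IsLocalizedModule (Submonoid.powers r) l := by
  let E : Γ(L.restrict (locι R S), ⊤) ≃ₗ[S] S :=
    ((moduleSpecΓFunctor (R := S)).mapIso
        (e ≪≫ tildeSelf.symm) ≪≫ (tilde.isoTop _).symm).toLinearEquiv
  let er : Γ(L, locι R S ''ᵁ ⊤) ≃ₗ[R] S :=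
    { ((L.restrictAppIso (locι R S) ⊤).addCommGroupIsoToAddEquiv.symm.trans E.toAddEquiv) with
      map_smul' := fun a x => by
        show E ((L.restrictAppIso (locι R S) ⊤).inv (a • x)) =
          a • E ((L.restrictAppIso (locι R S) ⊤).inv x)
        rw [Algebra.smul_def, ← smul_eq_mul, ← E.map_smul]
        exact congrArg E (restrictAppIso_inv_smul _ L a x) }
  have h := isLocalizedModule_resTop L r (locι R S ''ᵁ ⊤) (image_locι r)
  exact ⟨er.toLinearMap ∘ₗ resTop L (locι R S ''ᵁ ⊤), IsLocalizedModule.of_linearEquiv _ _ er⟩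

theorem restrict_iso_unit_of_isLocalizedModule (L : (Spec R).Modules) [IsIso L.fromTildeΓ]
    [L.IsQuasicoherent] (l : Γ(L, ⊤) →ₗ[R] S) [IsLocalizedModule (Submonoid.powers r) l] :
    Nonempty (L.restrict (locι R S) ≅ SheafOfModules.unit _) := by
  let N := L.restrict (locι R S)
  let : Module R Γ(N, ⊤) := Module.compHom _ (algebraMap R S)
  have : IsScalarTower R S Γ(N, ⊤) := .of_algebraMap_smul fun _ _ => rfl
  let i : Γ(L, locι R S ''ᵁ ⊤) ≃ₗ[R] Γ(N, ⊤) :=
    { (L.restrictAppIso (locι R S) ⊤).addCommGroupIsoToAddEquiv.symm with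
      map_smul' := fun a x => restrictAppIso_inv_smul _ L a x }
  have := isLocalizedModule_resTop L r (locι R S ''ᵁ ⊤) (image_locι r)
  have : IsLocalizedModule (Submonoid.powers r) (i.toLinearMap ∘ₗ resTop L (locι R S ''ᵁ ⊤)) :=
    IsLocalizedModule.of_linearEquiv _ _ i
  let E : Γ(N, ⊤) ≃ₗ[S] S :=
    (IsLocalizedModule.linearEquiv (Submonoid.powers r)
      (i.toLinearMap ∘ₗ resTop L (locι R S ''ᵁ ⊤)) l).extendScalarsOfIsLocalization
      (Submonoid.powers r) S
  have : IsIso N.fromTildeΓ := Scheme.Modules.isIso_fromTildeΓ_of_isQuasicoherent N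
  exact ⟨(asIso N.fromTildeΓ).symm ≪≫ (tilde.functor _).mapIso
    (E.toModuleIso (X₁ := (modulesSpecToSheaf.obj N).presheaf.obj (.op ⊤))) ≪≫ tildeSelf⟩

omit [Algebra R S] r in
theorem exists_basicOpen_trivial (L : (Spec R).Modules) (hL : Scheme.Modules.IsInvertible L)
    (x : Spec R) : ∃ r : R, x ∈ PrimeSpectrum.basicOpen r ∧
      ∃ _ : IsOpenImmersion (locι R (CommRingCat.of (Localization.Away r))),
      Nonempty (L.restrict (locι R (CommRingCat.of (Localization.Away r))) ≅
        SheafOfModules.unit _) := by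
  obtain ⟨U, hx, ⟨e⟩⟩ := exists_restrict_iso_unit hL x
  obtain ⟨_, ⟨_, ⟨r, rfl⟩, rfl⟩, hxr, hrU⟩ :=
    PrimeSpectrum.isBasis_basic_opens.exists_subset_of_mem_open hx U.2
  have hi : IsOpenImmersion (locι R (CommRingCat.of (Localization.Away r))) :=
    IsOpenImmersion.of_isLocalization r
  exact ⟨r, hxr, hi, restrict_iso_unit_of_range_le U e _
    ((PrimeSpectrum.localization_away_comap_range (Localization.Away r) r).le.trans hrU)⟩

omit [Algebra R S] r in
/-- The sections of an invertible sheaf on an affine scheme form an invertible module. -/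
theorem invertible_sections (L : (Spec R).Modules) (hL : Scheme.Modules.IsInvertible L) :
    Module.Invertible R Γ(L, ⊤) := by
  have := isIso_fromTilde_of_isInvertible L hL
  choose r hr e using exists_basicOpen_trivial L hL
  refine invertible_of_isLocalizedModule_away (Set.range r) ?_ ?_
  · rw [← PrimeSpectrum.iSup_basicOpen_eq_top_iff, eq_top_iff]
    exact fun x _ => Opens.mem_iSup.2 ⟨x, hr x⟩
  · rintro _ ⟨x, rfl⟩
    have := (e x).choose
    exact exists_isLocalizedModule_of_iso (S := CommRingCat.of (Localization.Away (r x))) (r x) L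
      (e x).choose_spec.some

theorem isIso_fromTilde_tilde (M : ModuleCat.{u} R) : IsIso (tilde M).fromTildeΓ :=
  isIso_fromTildeΓ_iff.mpr ⟨M, ⟨Iso.refl _⟩⟩

/-- The sheaf of an invertible module is invertible. -/
theorem isInvertible_tilde (M : ModuleCat.{u} R) [Module.Invertible R M] :
    Scheme.Modules.IsInvertible (tilde M) := by
  have := isIso_fromTilde_tilde M
  obtain ⟨s, hs, hf⟩ := Module.Invertible.exists_finset_free_localization (R := R) (M := M)
  refine isInvertible_of_cover fun x => ?_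
  rw [show (s : Set R) = Set.range fun r : {r // r ∈ (s : Set R)} => (r : R) from
    Subtype.range_coe.symm] at hs
  obtain ⟨⟨r, hr⟩, hx⟩ := Opens.mem_iSup.1 (((PrimeSpectrum.iSup_basicOpen_eq_top_iff
    (f := fun r : {r // r ∈ (s : Set R)} => (r : R))).mpr hs).ge (Set.mem_univ x))
  have := hf r hr
  obtain ⟨e⟩ := Module.Invertible.free_iff_linearEquiv.mp this
  let t : Γ(tilde M, ⊤) ≃ₗ[R] M := (tilde.isoTop M).toLinearEquiv.symm
  let l : Γ(tilde M, ⊤) →ₗ[R] Localization.Away r :=
    ((e.restrictScalars R).toLinearMap ∘ₗ LocalizedModule.mkLinearMap (Submonoid.powers r) M) ∘ₗ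
      t.toLinearMap
  have : IsLocalizedModule (Submonoid.powers r) l :=
    haveI := IsLocalizedModule.of_linearEquiv (Submonoid.powers r)
      (LocalizedModule.mkLinearMap (Submonoid.powers r) M) (e.restrictScalars R)
    IsLocalizedModule.of_linearEquiv_right _ _ t
  have hi : IsOpenImmersion (locι R (CommRingCat.of (Localization.Away r))) :=
    IsOpenImmersion.of_isLocalization r
  obtain ⟨i⟩ := restrict_iso_unit_of_isLocalizedModule
    (S := CommRingCat.of (Localization.Away r)) r (tilde M) l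
  refine ⟨_, locι R (CommRingCat.of (Localization.Away r)), hi, ?_, isInvertible_of_iso i.symm
    (Scheme.Modules.isInvertible_unit _)⟩
  exact (PrimeSpectrum.localization_away_comap_range (Localization.Away r) r).ge hx

theorem hom_ext_top {P N : (Spec R).Modules} [IsIso P.fromTildeΓ] {f g : P ⟶ N}
    (h : ∀ x : Γ(P, ⊤), f.app ⊤ x = g.app ⊤ x) : f = g := by
  rw [← cancel_epi P.fromTildeΓ]
  refine ((tilde.adjunction (R := R)).homEquiv _ N).injective ?_
  ext x
  exact h _

/-- The morphism out of the sheaf of a module given by a linear map to global sections. -/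
def homTilde {M : ModuleCat.{u} R} {N : (Spec R).Modules} (f : M →ₗ[R] Γ(N, ⊤)) :
    tilde M ⟶ N :=
  ((tilde.adjunction (R := R)).homEquiv M N).symm
    (ModuleCat.ofHom (Y := (modulesSpecToSheaf.obj N).presheaf.obj (.op ⊤)) f)

theorem homTilde_app {M : ModuleCat.{u} R} {N : (Spec R).Modules} (f : M →ₗ[R] Γ(N, ⊤)) (x : M) :
    (homTilde f).app ⊤ (tilde.toOpen M ⊤ x) = f x :=
  congr($(((tilde.adjunction (R := R)).homEquiv M N).apply_symm_apply
    (ModuleCat.ofHom (Y := (modulesSpecToSheaf.obj N).presheaf.obj (.op ⊤)) f)) x)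

theorem isIso_of_bijective_top {P N : (Spec R).Modules} [IsIso P.fromTildeΓ]
    [IsIso N.fromTildeΓ] (f : P ⟶ N) (h : Function.Bijective (f.app ⊤)) : IsIso f := by
  rw [← isIso_iff_of_reflects_iso _ modulesSpecToSheaf]
  refine isLocalizing_of_isIso_app_top ?_ ((isIso_fromTildeΓ_iff_isLocalizing P).mp ‹_›)
    ((isIso_fromTildeΓ_iff_isLocalizing N).mp ‹_›)
  rw [ConcreteCategory.isIso_iff_bijective]
  exact h

/-- An isomorphism of quasi-coherent sheaves from an isomorphism of global sections. -/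
theorem nonempty_iso_of_linearEquiv {P N : (Spec R).Modules} [IsIso P.fromTildeΓ]
    [hN : IsIso N.fromTildeΓ] (e : Γ(P, ⊤) ≃ₗ[R] Γ(N, ⊤)) : Nonempty (P ≅ N) :=
  ⟨(asIso P.fromTildeΓ).symm ≪≫ (tilde.functor _).mapIso
    (e.toModuleIso (X₁ := (modulesSpecToSheaf.obj P).presheaf.obj (.op ⊤))
      (X₂ := (modulesSpecToSheaf.obj N).presheaf.obj (.op ⊤))) ≪≫ @asIso _ _ _ _ N.fromTildeΓ hN⟩

end Fermat.Agent.Jac
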