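import Fermat.Agent.Jac.Geo
import Fermat.Agent.Jac.Represent

/-!
# The two charts of the curve over an affine base

The maps `j0`, `j1` and `j01` from the spectra of the chart rings into the curve over the base.
-/

set_option autoImplicit false

universe u

open CategoryTheory CategoryTheory.Limits AlgebraicGeometry AlgebraicGeometry.RelPicard
  NeronModelInfra
open scoped TensorProduct

noncomputable section

namespace Fermat.Agent.Jac

variable {k : Type u} [Field k] {C : Scheme.{u}} {c : C ⟶ Spec (CommRingCat.of k)}
variable (A : Type u) [CommRing A] [Algebra k A] {B : Type u} [CommRing B] [Algebra k B]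

/-- A chart of the curve over `A`. -/
def chartι (u : Spec (CommRingCat.of B) ⟶ C)
    (hu : u ≫ c = Spec.map (CommRingCat.ofHom (algebraMap k B))) :
    Spec (CommRingCat.of (A ⊗[k] B)) ⟶ pullback c (specTo k A) :=
  pullback.lift
    (Spec.map (CommRingCat.ofHom
      (Algebra.TensorProduct.includeRight (R := k) (A := A) (B := B)).toRingHom) ≫ u)
    (Spec.map (CommRingCat.ofHom (Algebra.TensorProduct.includeLeftRingHom : A →+* A ⊗[k] B)))
    (by
      rw [Category.assoc, hu, specTo, ← Spec.map_comp, ← Spec.map_comp]
      congr 1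
      ext a
      simp [Algebra.TensorProduct.algebraMap_apply])

variable (u : Spec (CommRingCat.of B) ⟶ C)
  (hu : u ≫ c = Spec.map (CommRingCat.ofHom (algebraMap k B)))

theorem chartι_fst : chartι A u hu ≫ pullback.fst c (specTo k A) =
    Spec.map (CommRingCat.ofHom
      (Algebra.TensorProduct.includeRight (R := k) (A := A) (B := B)).toRingHom) ≫ u :=
  pullback.lift_fst _ _ _

theorem chartι_snd : chartι A u hu ≫ pullback.snd c (specTo k A) =
    Spec.map (CommRingCat.ofHom (Algebra.TensorProduct.includeLeftRingHom : A →+* A ⊗[k] B)) :=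
  pullback.lift_snd _ _ _

theorem isPullback_chartι : IsPullback
    (Spec.map (CommRingCat.ofHom
      (Algebra.TensorProduct.includeRight (R := k) (A := A) (B := B)).toRingHom))
    (chartι A u hu) u (pullback.fst c (specTo k A)) := by
  refine IsPullback.of_bot ?_ (chartι_fst A u hu).symm (IsPullback.of_hasPullback c (specTo k A))
  rw [chartι_snd, hu]
  exact (isPullback_SpecMap_of_isPushout _ _ _ _
    (CommRingCat.isPushout_tensorProduct k A B)).flip

instance isOpenImmersion_chartι [IsOpenImmersion u] : IsOpenImmersion (chartι A u hu) :=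
  MorphismProperty.of_isPullback (P := @IsOpenImmersion) (isPullback_chartι A u hu) ‹_›

theorem range_chartι : Set.range (chartι A u hu).base =
    (pullback.fst c (specTo k A)).base ⁻¹' Set.range u.base := by
  rw [← (isPullback_chartι A u hu).isoPullback_hom_snd, Scheme.Hom.comp_base,
    TopCat.coe_comp, Set.range_comp,
    (show Function.Surjective (isPullback_chartι A u hu).isoPullback.hom from
      (Scheme.homeoOfIso (isPullback_chartι A u hu).isoPullback).surjective).range_eq,
    Set.image_univ, Scheme.Pullback.range_snd]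

theorem map_chartι {B' : Type u} [CommRing B'] [Algebra k B'] (f : B →ₐ[k] B')
    (u' : Spec (CommRingCat.of B') ⟶ C)
    (hu' : u' ≫ c = Spec.map (CommRingCat.ofHom (algebraMap k B')))
    (h : Spec.map (CommRingCat.ofHom f.toRingHom) ≫ u = u') :
    Spec.map (CommRingCat.ofHom (Algebra.TensorProduct.map (AlgHom.id A A) f).toRingHom) ≫
      chartι A u hu = chartι A u' hu' := by
  apply pullback.hom_ext
  · rw [Category.assoc, chartι_fst, chartι_fst, ← h, ← Spec.map_comp_assoc,
      ← Spec.map_comp_assoc]
    congr 2
  · rw [Category.assoc, chartι_snd, chartι_snd, ← Spec.map_comp]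
    congr 1
    ext a
    simp

theorem chartι_baseChange {A' : Type u} [CommRing A'] [Algebra k A'] (φ : A →ₐ[k] A') :
    chartι A' u hu ≫ baseChangeSnd c (specMapOver φ) =
      Spec.map (CommRingCat.ofHom (Algebra.TensorProduct.map φ (AlgHom.id k B)).toRingHom) ≫
        chartι A u hu := by
  apply pullback.hom_ext
  · rw [Category.assoc, Category.assoc, chartι_fst, baseChangeSnd, pullback.lift_fst,
      Category.comp_id, chartι_fst, ← Spec.map_comp_assoc]
    congr 2
    ext b
    simp
  · rw [Category.assoc, Category.assoc, chartι_snd, baseChangeSnd, pullback.lift_snd,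
      ← Category.assoc, chartι_snd, specMapOver]
    rw [← Spec.map_comp, ← Spec.map_comp]
    congr 1

variable {m : CurveModel k} {ε : SchemeHomOver (𝟙 (Spec (CommRingCat.of k))) c}
  (G : m.Geo c ε)

namespace GeoCharts

/-- The overlap of the two charts in the curve. -/
def overlap : Spec (CommRingCat.of m.B01) ⟶ C :=
  Spec.map (CommRingCat.ofHom m.i0.toRingHom) ≫ G.u0

theorem overlap_over :
    overlap G ≫ c = Spec.map (CommRingCat.ofHom (algebraMap k m.B01)) := by
  rw [overlap, Category.assoc, G.u0_over, ← Spec.map_comp]
  congr 1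
  ext a
  exact m.i0.commutes a

theorem overlap_eq : Spec.map (CommRingCat.ofHom m.i1.toRingHom) ≫ G.u1 = overlap G :=
  G.isPullback.w.symm

instance isOpenImmersion_u0 : IsOpenImmersion G.u0 := G.isOpenImmersion0

instance isOpenImmersion_u1 : IsOpenImmersion G.u1 := G.isOpenImmersion1

instance isOpenImmersion_overlap : IsOpenImmersion (overlap G) := by
  have : IsOpenImmersion (Spec.map (CommRingCat.ofHom m.i0.toRingHom)) :=
    MorphismProperty.of_isPullback (P := @IsOpenImmersion) G.isPullback.flip G.isOpenImmersion1
  exact IsOpenImmersion.comp _ _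

theorem range_overlap :
    Set.range (overlap G).base = Set.range G.u0.base ∩ Set.range G.u1.base := by
  have h : Set.range (Spec.map (CommRingCat.ofHom m.i0.toRingHom)).base =
      G.u0.base ⁻¹' Set.range G.u1.base := by
    rw [← G.isPullback.isoPullback_hom_fst, Scheme.Hom.comp_base, TopCat.coe_comp,
      Set.range_comp, (show Function.Surjective G.isPullback.isoPullback.hom from
        (Scheme.homeoOfIso G.isPullback.isoPullback).surjective).range_eq,
      Set.image_univ, Scheme.Pullback.range_fst]
  rw [overlap, Scheme.Hom.comp_base, TopCat.coe_comp, Set.range_comp, h,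
    Set.image_preimage_eq_inter_range, Set.inter_comm]

/-- The coordinate ring of the first chart. -/
abbrev ring0 (m : CurveModel k) : CommRingCat.{u} := CommRingCat.of (m.R0 A)

/-- The coordinate ring of the second chart. -/
abbrev ring1 (m : CurveModel k) : CommRingCat.{u} := CommRingCat.of (m.R1 A)

/-- The coordinate ring of the overlap. -/
abbrev ring01 (m : CurveModel k) : CommRingCat.{u} := CommRingCat.of (m.R01 A)

/-- The first chart. -/
def j0 : Spec (ring0 A m) ⟶ pullback c (specTo k A) := chartι A G.u0 G.u0_over

/-- The second chart. -/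
def j1 : Spec (ring1 A m) ⟶ pullback c (specTo k A) := chartι A G.u1 G.u1_over

/-- The overlap. -/
def j01 : Spec (ring01 A m) ⟶ pullback c (specTo k A) :=
  chartι A (overlap G) (overlap_over G)

instance : IsOpenImmersion (j0 A G) := isOpenImmersion_chartι A _ _

instance : IsOpenImmersion (j1 A G) := isOpenImmersion_chartι A _ _

instance : IsOpenImmersion (j01 A G) := isOpenImmersion_chartι A _ _

theorem fac0 : Spec.map (CommRingCat.ofHom (m.ι0 A)) ≫ j0 A G = j01 A G :=
  map_chartι A _ _ m.i0 _ _ rfl

theorem fac1 : Spec.map (CommRingCat.ofHom (m.ι1 A)) ≫ j1 A G = j01 A G :=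
  map_chartι A _ _ m.i1 _ _ (overlap_eq G)

include G in
theorem isOpenImmersion_ι0 : IsOpenImmersion (Spec.map (CommRingCat.ofHom (m.ι0 A))) :=
  have : IsOpenImmersion (Spec.map (CommRingCat.ofHom (m.ι0 A)) ≫ j0 A G) := by
    rw [fac0]; infer_instance
  IsOpenImmersion.of_comp _ (j0 A G)

/-- The two charts cover the curve over an affine base. -/
theorem opensRange_union : (j0 A G).opensRange ⊔ (j1 A G).opensRange = ⊤ := by
  refine TopologicalSpace.Opens.ext ?_
  show Set.range (chartι A G.u0 G.u0_over).base ∪ Set.range (chartι A G.u1 G.u1_over).base = _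
  rw [range_chartι, range_chartι, ← Set.preimage_union, G.range_union, Set.preimage_univ]
  rfl

theorem opensRange_inter : (j0 A G).opensRange ⊓ (j1 A G).opensRange = (j01 A G).opensRange := by
  refine TopologicalSpace.Opens.ext ?_
  show Set.range (chartι A G.u0 G.u0_over).base ∩ Set.range (chartι A G.u1 G.u1_over).base =
    Set.range (chartι A (overlap G) (overlap_over G)).base
  rw [range_chartι, range_chartι, range_chartι, ← Set.preimage_inter, range_overlap]

theorem rigSection_eq : rigSection c (specTo k A) ε =
    Spec.map (CommRingCat.ofHom (m.epsA A)) ≫ j1 A G := by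
  apply pullback.hom_ext
  · rw [rigSection, pullback.lift_fst, j1, Category.assoc, chartι_fst, ← G.eps_eq, specTo,
      ← Spec.map_comp_assoc, ← Spec.map_comp_assoc]
    congr 2
    ext b
    simp [CurveModel.epsA]
  · rw [rigSection, pullback.lift_snd, j1, Category.assoc, chartι_snd, ← Spec.map_comp,
      ← Spec.map_id]
    congr 1
    ext a
    simp [CurveModel.epsA]

theorem baseChange0 {A' : Type u} [CommRing A'] [Algebra k A'] (φ : A →ₐ[k] A') :
    j0 A' G ≫ baseChangeSnd c (specMapOver φ) =
      Spec.map (CommRingCat.ofHom (m.map0 φ)) ≫ j0 A G :=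
  chartι_baseChange A _ _ φ

theorem baseChange1 {A' : Type u} [CommRing A'] [Algebra k A'] (φ : A →ₐ[k] A') :
    j1 A' G ≫ baseChangeSnd c (specMapOver φ) =
      Spec.map (CommRingCat.ofHom (m.map1 φ)) ≫ j1 A G :=
  chartι_baseChange A _ _ φ

theorem baseChange01 {A' : Type u} [CommRing A'] [Algebra k A'] (φ : A →ₐ[k] A') :
    j01 A' G ≫ baseChangeSnd c (specMapOver φ) =
      Spec.map (CommRingCat.ofHom (m.map01 φ)) ≫ j01 A G :=
  chartι_baseChange A _ _ φ

end GeoCharts

end Fermat.Agent.Jac
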