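import Fermat.Prelude.Def_AlgebraicGeometry_RelativePicardFunctor

/-!
# Invertible sheaves on an affine scheme are quasi-coherent

The statement is `isIso_fromTilde_of_isInvertible`.
-/

set_option autoImplicit false

universe u

open CategoryTheory AlgebraicGeometry TopologicalSpace

noncomputable section

namespace Fermat.Agent.Jac

theorem isInvertible_of_iso {X : Scheme.{u}} {M N : X.Modules} (e : M ≅ N)
    (h : Scheme.Modules.IsInvertible M) : Scheme.Modules.IsInvertible N :=
  ⟨fun x => by
    obtain ⟨U, hx, ⟨a⟩⟩ := h.exists_trivialization x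
    exact ⟨U, hx, ⟨((Scheme.Modules.pullback U.ι).mapIso e).symm ≪≫ a⟩⟩⟩

theorem isInvertible_restrict {X Y : Scheme.{u}} (j : Y ⟶ X) [IsOpenImmersion j] {L : X.Modules}
    (h : Scheme.Modules.IsInvertible L) : Scheme.Modules.IsInvertible (L.restrict j) :=
  isInvertible_of_iso ((Scheme.Modules.restrictFunctorIsoPullback j).app L).symm (h.pullback j)

/-- A trivialisation as an isomorphism of restrictions. -/
theorem exists_restrict_iso_unit {X : Scheme.{u}} {M : X.Modules}
    (h : Scheme.Modules.IsInvertible M) (x : X) : ∃ U : X.Opens, x ∈ U ∧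
      Nonempty (M.restrict U.ι ≅ SheafOfModules.unit U.toScheme.ringCatSheaf) := by
  obtain ⟨U, hx, ⟨a⟩⟩ := h.exists_trivialization x
  exact ⟨U, hx, ⟨(Scheme.Modules.restrictFunctorIsoPullback U.ι).app M ≪≫ a⟩⟩

theorem isQuasicoherent_of_isInvertible {R : CommRingCat.{u}} (M : (Spec R).Modules)
    (h : Scheme.Modules.IsInvertible M) : M.IsQuasicoherent := by
  choose U hU e using exists_restrict_iso_unit h
  refine (SheafOfModules.QuasicoherentData.isQuasicoherent.{u, u} (M := M)
    { I := Spec R
      X := U
      coversTop := (Opens.coversTop_iff _ U).2 (eq_top_iff.2 fun x _ =>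
        Opens.mem_iSup.2 ⟨x, hU x⟩)
      presentation := fun x => ?_ })
  let P : SheafOfModules.Presentation (SheafOfModules.unit (Spec R).ringCatSheaf) :=
    SheafOfModules.Presentation.ofIsIso.{u, u, u} (tildeSelf (R := R)).hom
      (presentationTilde (ModuleCat.of R R) Set.univ (by simp) _ (Submodule.span_eq _))
  let Q : (M.restrict (U x).ι).Presentation :=
    SheafOfModules.Presentation.ofIsIso.{u, u, u}
      (Scheme.Modules.restrictUnitIso (U x).ι ≪≫ (e x).some.symm).hom
      (Scheme.Modules.presentationRestrict (U x).ι P)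
  exact SheafOfModules.Presentation.ofIsIso.{u, u, u}
    ((Scheme.Modules.overEquiv (U x)).inverse.mapIso
        ((Scheme.Modules.overFunctorEquiv (U x)).app M).symm ≪≫
      ((Scheme.Modules.overEquiv (U x)).unitIso.app _).symm).hom
    (Q.map (Scheme.Modules.overEquiv (U x)).inverse
      ((U x).sheafOfModulesEquivOverInverseUnit (Spec R).ringCatSheaf).symm)

/-- An invertible sheaf on an affine scheme is the sheaf of its global sections. -/
theorem isIso_fromTilde_of_isInvertible {R : CommRingCat.{u}} (M : (Spec R).Modules)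
    (h : Scheme.Modules.IsInvertible M) : IsIso M.fromTildeΓ :=
  haveI := isQuasicoherent_of_isInvertible M h
  Scheme.Modules.isIso_fromTildeΓ_of_isQuasicoherent M

end Fermat.Agent.Jac
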