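import Mathlib

/-!
# Sections of a sheaf of modules on an open affine

For an open immersion `j : Spec R ⟶ X` the sections of `L` over the image of `j` form an
`R`-module; morphisms of schemes give semilinear maps between them.
-/

set_option autoImplicit false

universe u

open CategoryTheory AlgebraicGeometry Opposite TopologicalSpace

noncomputable section

namespace Fermat.Agent.Jac

variable {X Y : Scheme.{u}}

/-- The sections over the image of an open immersion from an affine scheme, as a module. -/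
abbrev secOn {R : CommRingCat.{u}} (j : Spec R ⟶ X) [IsOpenImmersion j] (L : X.Modules) :
    Type u :=
  Γ(L.restrict j, ⊤)

/-- The ring of coordinates inside the functions on the image. -/
def coordHom {R : CommRingCat.{u}} (j : Spec R ⟶ X) [IsOpenImmersion j] :
    R ⟶ Γ(X, j ''ᵁ ⊤) :=
  (Scheme.ΓSpecIso R).inv ≫ (j.appIso ⊤).inv

theorem secOn_smul {R : CommRingCat.{u}} (j : Spec R ⟶ X) [IsOpenImmersion j] (L : X.Modules)
    (r : R) (x : secOn j L) :
    (L.restrictAppIso j ⊤).hom (r • x) =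
      (coordHom j).hom r • (L.restrictAppIso j ⊤).hom x := by
  rw [Scheme.Modules.smul_Spec_def]
  refine (Scheme.Modules.smul_restrictAppIso_hom_apply j L ⊤ _ x).trans ?_
  rw [show (Spec R).presheaf.map (⊤ : (Spec R).Opens).leTop.op = 𝟙 _ from
    (Spec R).presheaf.map_id _]
  rfl

theorem preimage_le_of_fac {R R' : CommRingCat.{u}} (g : Y ⟶ X) (j : Spec R ⟶ X)
    [IsOpenImmersion j] (j' : Spec R' ⟶ Y) [IsOpenImmersion j'] (φ : R ⟶ R')
    (hj : j' ≫ g = Spec.map φ ≫ j) : j' ''ᵁ ⊤ ≤ g ⁻¹ᵁ (j ''ᵁ ⊤) := by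
  rintro y ⟨x, -, rfl⟩
  refine ⟨(Spec.map φ).base x, trivial, ?_⟩
  show j (Spec.map φ x) = g (j' x)
  rw [← Scheme.Hom.comp_apply, ← hj, Scheme.Hom.comp_apply]

theorem coordHom_comp {R R' : CommRingCat.{u}} (g : Y ⟶ X) (j : Spec R ⟶ X) [IsOpenImmersion j]
    (j' : Spec R' ⟶ Y) [IsOpenImmersion j'] (φ : R ⟶ R') (hj : j' ≫ g = Spec.map φ ≫ j) :
    coordHom j ≫ g.appLE _ _ (preimage_le_of_fac g j j' φ hj) = φ ≫ coordHom j' := by
  rw [coordHom, coordHom, Category.assoc, ← Category.assoc φ,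
    Scheme.ΓSpecIso_inv_naturality φ, Category.assoc]
  congr 1
  rw [Iso.eq_comp_inv, Category.assoc]
  rw [Scheme.Hom.appIso_hom' j', Scheme.Hom.appLE_comp_appLE]
  have e : (j' ≫ g).appLE (j ''ᵁ ⊤) ⊤
      ((preimage_le_of_fac g j j' φ hj).trans' le_rfl |> fun h => by
        intro x _; exact h ⟨x, trivial, rfl⟩) =
      (Spec.map φ ≫ j).appLE (j ''ᵁ ⊤) ⊤ (by intro x _; exact ⟨_, trivial, rfl⟩) := by
    simp only [hj]
  refine (congrArg ((j.appIso ⊤).inv ≫ ·) e).trans ?_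
  rw [← Scheme.Hom.appLE_comp_appLE (Spec.map φ) j (j ''ᵁ ⊤) ⊤ ⊤ (j.preimage_image_eq ⊤).ge
      (by intro x _; trivial), ← Category.assoc, Scheme.Hom.appIso_inv_appLE]
  simp [Scheme.Hom.appLE, Scheme.Hom.appTop]

/-- The semilinear map of sections given by a morphism into a pushforward. -/
def secMap {R R' : CommRingCat.{u}} (g : Y ⟶ X) (j : Spec R ⟶ X) [IsOpenImmersion j]
    (j' : Spec R' ⟶ Y) [IsOpenImmersion j'] (φ : R ⟶ R') (hj : j' ≫ g = Spec.map φ ≫ j)
    {L : X.Modules} {N : Y.Modules} (ψ : L ⟶ (Scheme.Modules.pushforward g).obj N) :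
    secOn j L →ₛₗ[φ.hom] secOn j' N where
  toFun x := (N.restrictAppIso j' ⊤).inv
    (N.presheaf.map (homOfLE (preimage_le_of_fac g j j' φ hj)).op
      (ψ.app (j ''ᵁ ⊤) ((L.restrictAppIso j ⊤).hom x)))
  map_add' x y :=
    ((congrArg (N.restrictAppIso j' ⊤).inv
      ((congrArg (N.presheaf.map (homOfLE (preimage_le_of_fac g j j' φ hj)).op)
        (((congrArg (ψ.app (j ''ᵁ ⊤)) (map_add (L.restrictAppIso j ⊤).hom.hom x y))).trans
          (map_add (ψ.app (j ''ᵁ ⊤)).hom _ _))).trans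
        (map_add (N.presheaf.map (homOfLE (preimage_le_of_fac g j j' φ hj)).op).hom _ _))).trans
      (map_add (N.restrictAppIso j' ⊤).inv.hom _ _))
  map_smul' r x := by
    apply (N.restrictAppIso j' ⊤).addCommGroupIsoToAddEquiv.injective
    have h := congr($(coordHom_comp g j j' φ hj) r)
    show (N.restrictAppIso j' ⊤).hom ((N.restrictAppIso j' ⊤).inv _) =
      (N.restrictAppIso j' ⊤).hom (φ.hom r • _)
    rw [secOn_smul, secOn_smul, Scheme.Modules.Hom.app_smul]
    erw [Iso.inv_hom_id_apply, Iso.inv_hom_id_apply]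
    refine (Scheme.Modules.map_smul N _ (g.app _ ((coordHom j).hom r)) _).trans ?_
    exact congrArg (· • _) h

theorem secMap_apply {R R' : CommRingCat.{u}} (g : Y ⟶ X) (j : Spec R ⟶ X) [IsOpenImmersion j]
    (j' : Spec R' ⟶ Y) [IsOpenImmersion j'] (φ : R ⟶ R') (hj : j' ≫ g = Spec.map φ ≫ j)
    {L : X.Modules} {N : Y.Modules} (ψ : L ⟶ (Scheme.Modules.pushforward g).obj N)
    (x : secOn j L) :
    (N.restrictAppIso j' ⊤).hom (secMap g j j' φ hj ψ x) =
      N.presheaf.map (homOfLE (preimage_le_of_fac g j j' φ hj)).op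
        (ψ.app (j ''ᵁ ⊤) ((L.restrictAppIso j ⊤).hom x)) :=
  Iso.inv_hom_id_apply _ _

end Fermat.Agent.Jac
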