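import Fermat.Agent.Jac.DictAux.Transpose

/-!
# Sections of an inverse image are spanned by inverse images of sections

`span_secRes` and `span_secMap_unit` are the generation statements for line data.
-/

set_option autoImplicit false

universe u

open CategoryTheory AlgebraicGeometry Opposite TopologicalSpace

noncomputable section

namespace Fermat.Agent.Jac

theorem exists_hom_tilde {R : CommRingCat.{u}} (M : (Spec R).Modules) [IsIso M.fromTildeΓ]
    (Q : ModuleCat.{u} R) (f : Γ(M, ⊤) →ₗ[R] Q) :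
    ∃ h : M ⟶ tilde Q, ∀ x : Γ(M, ⊤), h.app ⊤ x = (tilde.toOpen Q ⊤).hom (f x) := by
  let F := ModuleCat.ofHom (X := (modulesSpecToSheaf.obj M).presheaf.obj (.op ⊤)) f
  refine ⟨inv M.fromTildeΓ ≫ tilde.map F, fun x => ?_⟩
  let y : Γ(tilde ((modulesSpecToSheaf.obj M).presheaf.obj (.op ⊤)), ⊤) :=
    (tilde.toOpen ((modulesSpecToSheaf.obj M).presheaf.obj (.op ⊤)) ⊤).hom x
  have h1 : M.fromTildeΓ.app ⊤ y = x :=
    (congr($(M.toOpen_fromTildeΓ_app ⊤) x)).trans (map_self _ _ x)
  have h2 : M.fromTildeΓ ≫ inv M.fromTildeΓ ≫ tilde.map F = tilde.map F :=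
    IsIso.hom_inv_id_assoc _ _
  refine (congrArg ((inv M.fromTildeΓ ≫ tilde.map F).app ⊤) h1.symm).trans ?_
  refine (congr(($h2).app ⊤ y)).trans ?_
  exact congr($(tilde.toOpen_map_app F ⊤) x)

theorem topMap_app_image {X : Scheme.{u}} {R : CommRingCat.{u}} (j : Spec R ⟶ X)
    [IsOpenImmersion j] {L : X.Modules} {P : (Spec R).Modules}
    (π : L ⟶ (Scheme.Modules.pushforward j).obj P) (V : X.Opens) (hV : j ''ᵁ ⊤ ≤ V)
    (h : ⊤ ≤ j ⁻¹ᵁ V) (z : Γ(L, V)) :
    P.presheaf.map (homOfLE h).op (π.app V z) = topMap j π ((L.restrictAppIso j ⊤).inv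
      (L.presheaf.map (homOfLE hV).op z)) := by
  refine Eq.trans ?_ (topMap_apply j π _).symm
  refine Eq.trans ?_ (congrArg (P.presheaf.map (homOfLE (top_le_preimage j)).op)
    (app_map π hV z).symm)
  erw [map_map]

variable {X Y : Scheme.{u}} {R R' : CommRingCat.{u}} (g : Y ⟶ X) (j : Spec R ⟶ X)
  [IsOpenImmersion j] (j' : Spec R' ⟶ Y) [IsOpenImmersion j'] (φ : R ⟶ R')
  (hj : j' ≫ g = Spec.map φ ≫ j) {L : X.Modules} {N : Y.Modules}
  (ψ : L ⟶ (Scheme.Modules.pushforward g).obj N)

/-- The image of the sections generates, for a map which is an epimorphism under adjunction. -/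
theorem span_secMap [IsIso (L.restrict j).fromTildeΓ] [IsIso (N.restrict j').fromTildeΓ]
    (hψ : ∀ (P : Y.Modules) (q : N ⟶ P), ψ ≫ (Scheme.Modules.pushforward g).map q = 0 → q = 0) :
    Submodule.span R' (Set.range (secMap g j j' φ hj ψ)) = ⊤ := by
  let S := Submodule.span R' (Set.range (secMap g j j' φ hj ψ))
  obtain ⟨q', hq'⟩ := exists_hom_tilde (N.restrict j')
    (ModuleCat.of R' (secOn j' N ⧸ S)) S.mkQ
  obtain ⟨q, hq⟩ : ∃ q : N ⟶ (Scheme.Modules.pushforward j').obj (tilde _), transpose j' q = q' :=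
    ⟨(Scheme.Modules.restrictAdjunction j').homEquiv N _ q', Equiv.symm_apply_apply _ q'⟩
  let e := (Scheme.Modules.pushforwardComp j' g).hom.app
      (tilde (ModuleCat.of R' (secOn j' N ⧸ S))) ≫
    (Scheme.Modules.pushforwardCongr hj).hom.app _ ≫
    (Scheme.Modules.pushforwardComp (Spec.map φ) j).inv.app _
  have hc : ψ ≫ (Scheme.Modules.pushforward g).map q ≫ e = 0 := by
    refine hom_ext_topMap j (LinearMap.ext fun x => ?_)
    refine (topMap_apply j _ x).trans (Eq.trans ?_ (topMap_apply j 0 x).symm)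
    refine Eq.trans ?_ (map_zero _).symm
    have hle : j' ''ᵁ ⊤ ≤ g ⁻¹ᵁ (j ''ᵁ ⊤) := preimage_le_of_fac g j j' φ hj
    have hsplit : (⊤ : (Spec R').Opens) ≤ j' ⁻¹ᵁ (g ⁻¹ᵁ (j ''ᵁ ⊤)) :=
      (top_le_preimage j').trans fun y hy => hle hy
    have h2 := (topMap_app_image j' q _ hle hsplit
      (ψ.app (j ''ᵁ ⊤) ((L.restrictAppIso j ⊤).hom x))).trans
      ((congr(($hq).app ⊤ (secMap g j j' φ hj ψ x))).trans ((hq' (secMap g j j' φ hj ψ x)).trans
        (congrArg (tilde.toOpen _ ⊤).hom
          ((Submodule.Quotient.mk_eq_zero S).mpr (Submodule.subset_span ⟨x, rfl⟩)))))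
    rw [map_zero] at h2
    refine Eq.trans ?_ h2
    simp only [e, Scheme.Modules.Hom.comp_app, ConcreteCategory.comp_apply]
    erw [map_map]
    rfl
  have hq0 : q = 0 := by
    refine hψ _ q ?_
    rw [← cancel_mono e, Category.assoc, hc, Limits.zero_comp]
  rw [eq_top_iff]
  intro y _
  have h := hq' y
  rw [← hq, hq0] at h
  refine (Submodule.Quotient.mk_eq_zero S).mp ?_
  refine (tilde.isoTop (ModuleCat.of R' (secOn j' N ⧸ S))).toLinearEquiv.injective ?_
  refine (h.symm.trans ?_).trans (map_zero _).symm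
  exact (transpose_app j' _ ⊤ y).trans (map_zero _)

omit g hj ψ in
/-- Restrictions of sections generate the sections on a smaller open affine. -/
theorem span_secRes (j₂ : Spec R' ⟶ X) [IsOpenImmersion j₂] (hj₂ : Spec.map φ ≫ j = j₂)
    (L : X.Modules) [IsIso (L.restrict j).fromTildeΓ] [IsIso (L.restrict j₂).fromTildeΓ] :
    Submodule.span R' (Set.range (secRes j j₂ φ hj₂ L)) = ⊤ := by
  have i1 : IsIso (((𝟭 X.Modules).obj L).restrict j).fromTildeΓ :=
    ‹IsIso (L.restrict j).fromTildeΓ›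
  refine @span_secMap X X R R' (𝟙 X) j _ j₂ _ φ ((Category.comp_id j₂).trans hj₂.symm)
    ((𝟭 X.Modules).obj L) L ((Scheme.Modules.pushforwardId X).inv.app L) i1 ‹_› fun P q hq => ?_
  have h := (Scheme.Modules.pushforwardId X).inv.naturality q
  exact (cancel_mono ((Scheme.Modules.pushforwardId X).inv.app P)).mp
    ((h.trans hq).trans Limits.zero_comp.symm)

/-- Inverse images of sections generate the sections of the inverse image. -/
theorem span_secMap_unit [IsIso (L.restrict j).fromTildeΓ]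
    [IsIso (((Scheme.Modules.pullback g).obj L).restrict j').fromTildeΓ] :
    Submodule.span R' (Set.range (secMap g j j' φ hj
      ((Scheme.Modules.pullbackPushforwardAdjunction g).unit.app L))) = ⊤ :=
  @span_secMap X Y R R' g j _ j' _ φ hj ((𝟭 X.Modules).obj L) ((Scheme.Modules.pullback g).obj L)
    ((Scheme.Modules.pullbackPushforwardAdjunction g).unit.app L)
    ‹IsIso (L.restrict j).fromTildeΓ› ‹_› fun P q hq => by
    apply ((Scheme.Modules.pullbackPushforwardAdjunction g).homEquiv L P).injective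
    rw [Adjunction.homEquiv_unit, Adjunction.homEquiv_unit, Functor.map_zero, Limits.comp_zero]
    exact hq

end Fermat.Agent.Jac
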