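import Fermat.Agent.Jac.DictAux.Charts
import Fermat.Agent.Jac.DictAux.Span

/-!
# The line data of an invertible sheaf

`toData` takes sections on the two charts and the overlap; it commutes with base change
(`isBaseChangeData_toData`).
-/

set_option autoImplicit false

universe u

open CategoryTheory CategoryTheory.Limits AlgebraicGeometry AlgebraicGeometry.RelPicard
  NeronModelInfra
open scoped TensorProduct

noncomputable section

namespace Fermat.Agent.Jac

namespace GeoCharts

theorem isIso_fromTilde_restrict {X : Scheme.{u}} {L : X.Modules}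
    (hL : Scheme.Modules.IsInvertible L) {R : CommRingCat.{u}} (j : Spec R ⟶ X)
    [IsOpenImmersion j] : IsIso (L.restrict j).fromTildeΓ :=
  isIso_fromTilde_of_isInvertible _ (isInvertible_restrict j hL)

theorem invertible_secOn {X : Scheme.{u}} {L : X.Modules}
    (hL : Scheme.Modules.IsInvertible L) {R : CommRingCat.{u}} (j : Spec R ⟶ X)
    [IsOpenImmersion j] : Module.Invertible R (secOn j L) :=
  invertible_sections _ (isInvertible_restrict j hL)

/-- Sections over an open affine form a module over its coordinate ring. -/
@[reducible] def secModule {X : Scheme.{u}} {R : CommRingCat.{u}} (j : Spec R ⟶ X)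
    [IsOpenImmersion j] (L : X.Modules) : Module R (secOn j L) :=
  inferInstance

variable {k : Type u} [Field k] {C : Scheme.{u}} {c : C ⟶ Spec (CommRingCat.of k)}
variable (A : Type u) [CommRing A] [Algebra k A]
variable {m : CurveModel k} {ε : SchemeHomOver (𝟙 (Spec (CommRingCat.of k))) c}
  (G : m.Geo c ε) (L : (pullback c (specTo k A)).Modules)

/-- Sections on the first chart as a module. -/
@[reducible] def secModule0 : Module (m.R0 A) (secOn (j0 A G) L) :=
  secModule (j0 A G) L

/-- Sections on the second chart as a module. -/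
@[reducible] def secModule1 : Module (m.R1 A) (secOn (j1 A G) L) :=
  secModule (j1 A G) L

/-- Sections on the overlap as a module. -/
@[reducible] def secModule01 : Module (m.R01 A) (secOn (j01 A G) L) :=
  secModule (j01 A G) L

/-- Sections on the first chart as a module over the base. -/
@[reducible] def secModuleA0 : Module A (secOn (j0 A G) L) :=
  letI := secModule0 A G L
  Module.compHom _ (algebraMap A (m.R0 A))

/-- Sections on the second chart as a module over the base. -/
@[reducible] def secModuleA1 : Module A (secOn (j1 A G) L) :=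
  letI := secModule1 A G L
  Module.compHom _ (algebraMap A (m.R1 A))

/-- Sections on the overlap as a module over the base. -/
@[reducible] def secModuleA01 : Module A (secOn (j01 A G) L) :=
  letI := secModule01 A G L
  Module.compHom _ (algebraMap A (m.R01 A))

/-- The line data of an invertible sheaf. -/
def toData (hL : Scheme.Modules.IsInvertible L) : LineData m A where
  M0 := secOn (j0 A G) L
  M1 := secOn (j1 A G) L
  M01 := secOn (j01 A G) L
  module0 := secModule0 A G L
  module1 := secModule1 A G L
  module01 := secModule01 A G L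
  moduleA0 := secModuleA0 A G L
  moduleA1 := secModuleA1 A G L
  moduleA01 := secModuleA01 A G L
  tower0 :=
    letI := secModule0 A G L
    letI := secModuleA0 A G L
    .of_algebraMap_smul fun _ _ => rfl
  tower1 :=
    letI := secModule1 A G L
    letI := secModuleA1 A G L
    .of_algebraMap_smul fun _ _ => rfl
  tower01 :=
    letI := secModule01 A G L
    letI := secModuleA01 A G L
    .of_algebraMap_smul fun _ _ => rfl
  invertible0 := invertible_secOn hL (j0 A G)
  invertible1 := invertible_secOn hL (j1 A G)
  invertible01 := invertible_secOn hL (j01 A G)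
  res0 := secRes (j0 A G) (j01 A G) (CommRingCat.ofHom (m.ι0 A)) (fac0 A G) L
  res1 := secRes (j1 A G) (j01 A G) (CommRingCat.ofHom (m.ι1 A)) (fac1 A G) L
  span0 :=
    have := isIso_fromTilde_restrict hL (j0 A G)
    have := isIso_fromTilde_restrict hL (j01 A G)
    span_secRes (j0 A G) (CommRingCat.ofHom (m.ι0 A)) (j01 A G) (fac0 A G) L
  span1 :=
    have := isIso_fromTilde_restrict hL (j1 A G)
    have := isIso_fromTilde_restrict hL (j01 A G)
    span_secRes (j1 A G) (CommRingCat.ofHom (m.ι1 A)) (j01 A G) (fac1 A G) L

/-- An isomorphism of sheaves on sections over an open affine. -/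
def secEquiv {X : Scheme.{u}} {R : CommRingCat.{u}} (j : Spec R ⟶ X) [IsOpenImmersion j]
    {L L' : X.Modules} (e : L ≅ L') : secOn j L ≃ₗ[R] secOn j L' :=
  ((moduleSpecΓFunctor (R := R)).mapIso ((Scheme.Modules.restrictFunctor j).mapIso e)).toLinearEquiv

theorem secEquiv_secRes {X : Scheme.{u}} {R R' : CommRingCat.{u}} (j : Spec R ⟶ X)
    [IsOpenImmersion j] (j' : Spec R' ⟶ X) [IsOpenImmersion j'] (φ : R ⟶ R')
    (hj : Spec.map φ ≫ j = j') {L L' : X.Modules} (e : L ≅ L') (x : secOn j L) :
    secRes j j' φ hj L' (secEquiv j e x) = secEquiv j' e (secRes j j' φ hj L x) := by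
  apply (L'.restrictAppIso j' ⊤).addCommGroupIsoToAddEquiv.injective
  refine (secRes_apply j j' φ hj L' _).trans ?_
  refine Eq.trans ?_ (congrArg (e.hom.app (j' ''ᵁ ⊤)) (secRes_apply j j' φ hj L x)).symm
  exact (app_map e.hom _ _).symm

/-- Isomorphic sheaves have isomorphic line data. -/
theorem nonempty_iso_toData {L' : (pullback c (specTo k A)).Modules}
    (hL : Scheme.Modules.IsInvertible L) (hL' : Scheme.Modules.IsInvertible L') (e : L ≅ L') :
    Nonempty (LineData.Iso (toData A G L hL) (toData A G L' hL')) :=
  ⟨{ e0 := secEquiv (j0 A G) e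
     e1 := secEquiv (j1 A G) e
     e01 := secEquiv (j01 A G) e
     comm0 := secEquiv_secRes (j0 A G) (j01 A G) _ (fac0 A G) e
     comm1 := secEquiv_secRes (j1 A G) (j01 A G) _ (fac1 A G) e }⟩

/-- The line data of an inverse image are the base change of the line data. -/
theorem isBaseChangeData_toData {A' : Type u} [CommRing A'] [Algebra k A'] (φ : A →ₐ[k] A')
    (hL : Scheme.Modules.IsInvertible L) :
    (toData A G L hL).IsBaseChangeData φ
      (toData A' G ((Scheme.Modules.pullback (baseChangeSnd c (specMapOver φ))).obj L)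
        (hL.pullback _)) := by
  let η := (Scheme.Modules.pullbackPushforwardAdjunction
    (baseChangeSnd c (specMapOver φ))).unit.app L
  refine ⟨secMap _ (j0 A G) (j0 A' G) (CommRingCat.ofHom (m.map0 φ)) (baseChange0 A G φ) η,
    secMap _ (j1 A G) (j1 A' G) (CommRingCat.ofHom (m.map1 φ)) (baseChange1 A G φ) η,
    secMap _ (j01 A G) (j01 A' G) (CommRingCat.ofHom (m.map01 φ)) (baseChange01 A G φ) η,
    fun x => ?_, fun x => ?_, ?_, ?_⟩
  · exact secMap_secRes (j0 A G) (j01 A G) _ (j0 A' G) (j01 A' G) _ (fac0 A' G) (fac0 A G) _ _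
      (baseChange0 A G φ) _ (baseChange01 A G φ) η x
  · exact secMap_secRes (j1 A G) (j01 A G) _ (j1 A' G) (j01 A' G) _ (fac1 A' G) (fac1 A G) _ _
      (baseChange1 A G φ) _ (baseChange01 A G φ) η x
  · have := isIso_fromTilde_restrict hL (j0 A G)
    have := isIso_fromTilde_restrict (hL.pullback (baseChangeSnd c (specMapOver φ))) (j0 A' G)
    exact span_secMap_unit _ (j0 A G) (j0 A' G) (CommRingCat.ofHom (m.map0 φ)) (baseChange0 A G φ)
  · have := isIso_fromTilde_restrict hL (j1 A G)
    have := isIso_fromTilde_restrict (hL.pullback (baseChangeSnd c (specMapOver φ))) (j1 A' G)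
    exact span_secMap_unit _ (j1 A G) (j1 A' G) (CommRingCat.ofHom (m.map1 φ)) (baseChange1 A G φ)

end GeoCharts

end Fermat.Agent.Jac
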