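import Fermat.Agent.Jac.DictAux.ToData

/-!
# The invertible sheaf of line data

`glue` is the equaliser of the two pushforwards into the overlap, an inverse of `toData`.
-/

set_option autoImplicit false

universe u

open CategoryTheory CategoryTheory.Limits AlgebraicGeometry AlgebraicGeometry.RelPicard
  NeronModelInfra Opposite TopologicalSpace
open scoped TensorProduct

noncomputable section

namespace Fermat.Agent.Jac

/-- Sections over an open set, as a functor to abelian groups. -/
abbrev sectionsFunctor {X : Scheme.{u}} (V : X.Opens) : X.Modules ⥤ Ab :=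
  Scheme.Modules.toPresheaf X ⋙ (evaluation _ _).obj (op V)

theorem preservesLimit_sectionsFunctor {X : Scheme.{u}} (V : X.Opens) {J : Type} [SmallCategory J]
    [FinCategory J] (K : J ⥤ X.Modules) : PreservesLimit K (sectionsFunctor V) := by
  let F : X.Modules ⥤ ((Opens X)ᵒᵖ ⥤ Ab) := Scheme.Modules.toPresheaf X
  have h1 : PreservesLimitsOfSize.{0, 0} (Scheme.Modules.toPresheaf X) :=
    preservesLimitsOfSize_shrink.{0, u, 0, u} _
  have : PreservesLimit K F := h1.preservesLimitsOfShape.preservesLimit
  exact comp_preservesLimit F ((evaluation _ Ab).obj (op V))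

theorem isIso_pullback_fst_app {X : Scheme.{u}} {P Q S : X.Modules} (f : P ⟶ S) (g : Q ⟶ S)
    (V : X.Opens) (h : IsIso (g.app V)) : IsIso ((pullback.fst f g).app V) :=
  haveI := preservesLimit_sectionsFunctor V (cospan f g)
  ((IsPullback.of_hasPullback f g).map (sectionsFunctor V)).isIso_fst_of_isIso h

theorem isIso_pullback_snd_app {X : Scheme.{u}} {P Q S : X.Modules} (f : P ⟶ S) (g : Q ⟶ S)
    (V : X.Opens) (h : IsIso (f.app V)) : IsIso ((pullback.snd f g).app V) :=
  haveI := preservesLimit_sectionsFunctor V (cospan f g)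
  ((IsPullback.of_hasPullback f g).map (sectionsFunctor V)).isIso_snd_of_isIso h

theorem isIso_of_app_on_cover {X : Scheme.{u}} {L N : X.Modules} (f : L ⟶ N) (U₀ U₁ : X.Opens)
    (hU : U₀ ⊔ U₁ = ⊤) (h : ∀ V, (V ≤ U₀ ∨ V ≤ U₁) → IsIso (f.app V)) : IsIso f := by
  rw [Scheme.Modules.Hom.isIso_iff_isIso_app]
  let B : {V : X.Opens // V ≤ U₀ ∨ V ≤ U₁} → Opens X := Subtype.val
  have hB : Opens.IsBasis (Set.range B) := by
    rw [Opens.isBasis_iff_nbhd]
    intro U x hx
    rcases Opens.mem_sup.1 (hU.ge (Set.mem_univ x)) with h0 | h1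
    · exact ⟨U ⊓ U₀, ⟨⟨_, Or.inl inf_le_right⟩, rfl⟩, ⟨hx, h0⟩, inf_le_left⟩
    · exact ⟨U ⊓ U₁, ⟨⟨_, Or.inr inf_le_right⟩, rfl⟩, ⟨hx, h1⟩, inf_le_left⟩
  let φ : (⟨L.presheaf, L.isSheaf⟩ : TopCat.Sheaf Ab X) ⟶ ⟨N.presheaf, N.isSheaf⟩ :=
    ⟨f.mapPresheaf⟩
  have : IsIso φ := TopCat.Sheaf.isIso_iff_isIso_basis (φ := φ) hB fun i => h i.1 i.2
  intro U
  have h1 : IsIso f.mapPresheaf :=
    @Functor.map_isIso (TopCat.Sheaf Ab X) _ _ _ _ _ (TopCat.Sheaf.forget Ab X) φ this
  exact (NatTrans.isIso_iff_isIso_app f.mapPresheaf).mp h1 (op U)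

theorem exists_hom_pushforward {X : Scheme.{u}} {R : CommRingCat.{u}} (j : Spec R ⟶ X)
    [IsOpenImmersion j] (L : X.Modules) [IsIso (L.restrict j).fromTildeΓ] (M : ModuleCat.{u} R)
    (e : secOn j L ≃ₗ[R] M) :
    ∃ π : L ⟶ (Scheme.Modules.pushforward j).obj (tilde M),
      (∀ x, topMap j π x = (tilde.toOpen M ⊤).hom (e x)) ∧
        ∀ V ≤ j.opensRange, IsIso (π.app V) := by
  obtain ⟨q', hq'⟩ := exists_hom_tilde (L.restrict j) M e.toLinearMap
  have : IsIso (tilde M).fromTildeΓ := isIso_fromTilde_tilde M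
  have hiso : IsIso q' := by
    refine isIso_of_bijective_top q' ?_
    rw [show ⇑(q'.app ⊤) = (tilde.isoTop M).toLinearEquiv ∘ e from funext fun x => hq' x]
    exact (tilde.isoTop M).toLinearEquiv.bijective.comp e.bijective
  have ht : transpose j ((Scheme.Modules.restrictAdjunction j).homEquiv L _ q') = q' :=
    Equiv.symm_apply_apply _ q'
  refine ⟨(Scheme.Modules.restrictAdjunction j).homEquiv L _ q', fun x => ?_, ?_⟩
  · exact (congr(($ht).app ⊤ x)).trans (hq' x)
  · intro V hV
    have : IsIso (transpose j ((Scheme.Modules.restrictAdjunction j).homEquiv L _ q')) :=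
      ht.symm ▸ hiso
    exact isIso_app_of_isIso_transpose j _ V hV

theorem hom_ext_topMap_on {X : Scheme.{u}} {R : CommRingCat.{u}} (j : Spec R ⟶ X)
    [IsOpenImmersion j] {L : X.Modules} {P : (Spec R).Modules} [IsIso (L.restrict j).fromTildeΓ]
    {π π' : L ⟶ (Scheme.Modules.pushforward j).obj P} {s : Set (secOn j L)}
    (hs : Submodule.span R s = ⊤) (h : Set.EqOn (topMap j π) (topMap j π') s) : π = π' :=
  hom_ext_topMap j (LinearMap.ext_on hs h)

/-- The comparison on global sections for a morphism inducing an isomorphism. -/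
def topEquiv {X : Scheme.{u}} {R : CommRingCat.{u}} (j : Spec R ⟶ X) [IsOpenImmersion j]
    {L : X.Modules} {M : ModuleCat.{u} R}
    (π : L ⟶ (Scheme.Modules.pushforward j).obj (tilde M))
    (h : ∀ V ≤ j.opensRange, IsIso (π.app V)) : secOn j L ≃ₗ[R] M :=
  (LinearEquiv.ofBijective (topMap j π)
      (haveI := isIso_transpose j π h; bijective_topMap j π)).trans
    (tilde.isoTop M).toLinearEquiv.symm

theorem toOpen_topEquiv {X : Scheme.{u}} {R : CommRingCat.{u}} (j : Spec R ⟶ X)
    [IsOpenImmersion j] {L : X.Modules} {M : ModuleCat.{u} R}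
    (π : L ⟶ (Scheme.Modules.pushforward j).obj (tilde M))
    (h : ∀ V ≤ j.opensRange, IsIso (π.app V)) (x : secOn j L) :
    topMap j π x = (tilde.toOpen M ⊤).hom (topEquiv j π h x) :=
  ((tilde.isoTop M).toLinearEquiv.apply_symm_apply (topMap j π x)).symm

/-- The comparisons on global sections commute with restriction and a semilinear map. -/
theorem topEquiv_secRes {X : Scheme.{u}} {R R' : CommRingCat.{u}} {j : Spec R ⟶ X}
    [IsOpenImmersion j] {j' : Spec R' ⟶ X} [IsOpenImmersion j'] {φ : R ⟶ R'}
    (hj : Spec.map φ ≫ j = j') {L : X.Modules} {M : ModuleCat.{u} R} {M' : ModuleCat.{u} R'}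
    (l : M →ₛₗ[φ.hom] M') (π : L ⟶ (Scheme.Modules.pushforward j).obj (tilde M))
    (h : ∀ V ≤ j.opensRange, IsIso (π.app V))
    (π' : L ⟶ (Scheme.Modules.pushforward j').obj (tilde M'))
    (h' : ∀ V ≤ j'.opensRange, IsIso (π'.app V)) (e : π ≫ transition hj l = π') (x : secOn j L) :
    topEquiv j' π' h' (secRes j j' φ hj L x) = l (topEquiv j π h x) := by
  subst e
  apply (tilde.isoTop M').toLinearEquiv.injective
  exact (toOpen_topEquiv _ _ _ _).symm.trans
    (topMap_comp_transition hj l π x (topEquiv j π h x) (toOpen_topEquiv _ _ _ x))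

namespace GeoCharts

variable {k : Type u} [Field k] {C : Scheme.{u}} {c : C ⟶ Spec (CommRingCat.of k)}
variable (A : Type u) [CommRing A] [Algebra k A]
variable {m : CurveModel k} {ε : SchemeHomOver (𝟙 (Spec (CommRingCat.of k))) c}
  (G : m.Geo c ε) (D : LineData m A)

/-- The first module as an object. -/
abbrev mod0 : ModuleCat.{u} (ring0 A m) := ModuleCat.of (ring0 A m) D.M0

/-- The second module as an object. -/
abbrev mod1 : ModuleCat.{u} (ring1 A m) := ModuleCat.of (ring1 A m) D.M1

/-- The module on the overlap as an object. -/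
abbrev mod01 : ModuleCat.{u} (ring01 A m) := ModuleCat.of (ring01 A m) D.M01

/-- The first restriction as a map of objects. -/
abbrev map0 : mod0 A D →ₛₗ[(CommRingCat.ofHom (m.ι0 A)).hom] mod01 A D := D.res0

/-- The second restriction as a map of objects. -/
abbrev map1 : mod1 A D →ₛₗ[(CommRingCat.ofHom (m.ι1 A)).hom] mod01 A D := D.res1

/-- The first transition morphism. -/
def trans0 : (Scheme.Modules.pushforward (j0 A G)).obj (tilde (mod0 A D)) ⟶
    (Scheme.Modules.pushforward (j01 A G)).obj (tilde (mod01 A D)) :=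
  transition (fac0 A G) (map0 A D)

/-- The second transition morphism. -/
def trans1 : (Scheme.Modules.pushforward (j1 A G)).obj (tilde (mod1 A D)) ⟶
    (Scheme.Modules.pushforward (j01 A G)).obj (tilde (mod01 A D)) :=
  transition (fac1 A G) (map1 A D)

/-- The sheaf of line data. -/
def glue : (pullback c (specTo k A)).Modules :=
  pullback (trans0 A G D) (trans1 A G D)

include G in
theorem isOpenImmersion_ι1 : IsOpenImmersion (Spec.map (CommRingCat.ofHom (m.ι1 A))) :=
  have : IsOpenImmersion (Spec.map (CommRingCat.ofHom (m.ι1 A)) ≫ j1 A G) := by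
    rw [fac1]; infer_instance
  IsOpenImmersion.of_comp _ (j1 A G)

theorem isIso_trans0_app (V : (pullback c (specTo k A)).Opens) (hV : V ≤ (j1 A G).opensRange) :
    IsIso ((trans0 A G D).app V) :=
  haveI := isOpenImmersion_ι0 A G
  isIso_transition_app (fac0 A G) (map0 A D) D.span0 V
    (((inf_le_inf_right _ hV).trans (inf_comm _ _).le).trans (opensRange_inter A G).le)

theorem isIso_trans1_app (V : (pullback c (specTo k A)).Opens) (hV : V ≤ (j0 A G).opensRange) :
    IsIso ((trans1 A G D).app V) :=
  haveI := isOpenImmersion_ι1 A G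
  isIso_transition_app (fac1 A G) (map1 A D) D.span1 V
    ((inf_le_inf_right _ hV).trans (opensRange_inter A G).le)

theorem isIso_glue_fst_app (V : (pullback c (specTo k A)).Opens) (hV : V ≤ (j0 A G).opensRange) :
    IsIso ((pullback.fst (trans0 A G D) (trans1 A G D)).app V) :=
  isIso_pullback_fst_app _ _ V (isIso_trans1_app A G D V hV)

theorem isIso_glue_snd_app (V : (pullback c (specTo k A)).Opens) (hV : V ≤ (j1 A G).opensRange) :
    IsIso ((pullback.snd (trans0 A G D) (trans1 A G D)).app V) :=
  isIso_pullback_snd_app _ _ V (isIso_trans0_app A G D V hV)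

/-- The sheaf of line data is invertible. -/
theorem isInvertible_glue : Scheme.Modules.IsInvertible (glue A G D) := by
  refine isInvertible_of_cover fun x => ?_
  rcases Opens.mem_sup.1 ((opensRange_union A G).ge (Set.mem_univ x)) with h | h
  · have := isIso_transpose (j0 A G) (pullback.fst (trans0 A G D) (trans1 A G D))
      (isIso_glue_fst_app A G D)
    exact ⟨_, j0 A G, inferInstance, h, isInvertible_of_iso
      (asIso (transpose (j0 A G) (pullback.fst (trans0 A G D) (trans1 A G D)))).symm
      (isInvertible_tilde (mod0 A D))⟩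
  · have := isIso_transpose (j1 A G) (pullback.snd (trans0 A G D) (trans1 A G D))
      (isIso_glue_snd_app A G D)
    exact ⟨_, j1 A G, inferInstance, h, isInvertible_of_iso
      (asIso (transpose (j1 A G) (pullback.snd (trans0 A G D) (trans1 A G D)))).symm
      (isInvertible_tilde (mod1 A D))⟩

theorem isIso_glue_overlap_app (V : (pullback c (specTo k A)).Opens)
    (hV : V ≤ (j01 A G).opensRange) :
    IsIso ((pullback.fst (trans0 A G D) (trans1 A G D) ≫ trans0 A G D).app V) := by
  have h := hV.trans (opensRange_inter A G).ge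
  exact IsIso.comp_isIso' (isIso_glue_fst_app A G D V (h.trans inf_le_left))
    (isIso_trans0_app A G D V (h.trans inf_le_right))

/-- A sheaf with compatible maps to the two pushforwards, isomorphisms over the charts, has the
given line data. -/
theorem nonempty_iso_toData_of {L : (pullback c (specTo k A)).Modules}
    (hL : Scheme.Modules.IsInvertible L)
    (π0 : L ⟶ (Scheme.Modules.pushforward (j0 A G)).obj (tilde (mod0 A D)))
    (π1 : L ⟶ (Scheme.Modules.pushforward (j1 A G)).obj (tilde (mod1 A D)))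
    (h0 : ∀ V ≤ (j0 A G).opensRange, IsIso (π0.app V))
    (h1 : ∀ V ≤ (j1 A G).opensRange, IsIso (π1.app V))
    (h01 : ∀ V ≤ (j01 A G).opensRange, IsIso ((π0 ≫ trans0 A G D).app V))
    (e : π0 ≫ trans0 A G D = π1 ≫ trans1 A G D) :
    Nonempty (LineData.Iso (toData A G L hL) D) :=
  -- spelled out step by step, so that the kernel does not unfold the chart rings
  have t0 : π0 ≫ transition (fac0 A G) (map0 A D) = π0 ≫ trans0 A G D :=
    congrArg (π0 ≫ ·) (trans0.eq_def A G D).symm
  have t1' : π1 ≫ transition (fac1 A G) (map1 A D) = π1 ≫ trans1 A G D :=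
    congrArg (π1 ≫ ·) (trans1.eq_def A G D).symm
  have t1 : π1 ≫ transition (fac1 A G) (map1 A D) = π0 ≫ trans0 A G D := t1'.trans e.symm
  ⟨{ e0 := topEquiv (j0 A G) π0 h0
     e1 := topEquiv (j1 A G) π1 h1
     e01 := topEquiv (j01 A G) (π0 ≫ trans0 A G D) h01
     comm0 := fun x => (topEquiv_secRes (fac0 A G) (map0 A D) π0 h0 _ h01 t0 x).symm
     comm1 := fun x => (topEquiv_secRes (fac1 A G) (map1 A D) π1 h1 _ h01 t1 x).symm }⟩

/-- The line data of the sheaf of line data are the given ones. -/
theorem nonempty_iso_toData_glue :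
    Nonempty (LineData.Iso (toData A G (glue A G D) (isInvertible_glue A G D)) D) :=
  nonempty_iso_toData_of A G D _ _ _ (isIso_glue_fst_app A G D) (isIso_glue_snd_app A G D)
    (isIso_glue_overlap_app A G D) pullback.condition

/-- A sheaf with the given line data is isomorphic to the sheaf of the line data. -/
theorem nonempty_iso_glue {L : (pullback c (specTo k A)).Modules}
    (hL : Scheme.Modules.IsInvertible L) (e : LineData.Iso (toData A G L hL) D) :
    Nonempty (L ≅ glue A G D) := by
  have := isIso_fromTilde_restrict hL (j0 A G)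
  have := isIso_fromTilde_restrict hL (j1 A G)
  have := isIso_fromTilde_restrict hL (j01 A G)
  obtain ⟨π0, h0, hi0⟩ := exists_hom_pushforward (j0 A G) L (mod0 A D) e.e0
  obtain ⟨π1, h1, hi1⟩ := exists_hom_pushforward (j1 A G) L (mod1 A D) e.e1
  obtain ⟨π01, h01, -⟩ := exists_hom_pushforward (j01 A G) L (mod01 A D) e.e01
  have c0 : π0 ≫ trans0 A G D = π01 := by
    refine hom_ext_topMap_on (j01 A G) (span_secRes
      (j0 A G) (CommRingCat.ofHom (m.ι0 A)) (j01 A G) (fac0 A G) L) ?_
    rintro _ ⟨x, rfl⟩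
    refine (topMap_comp_transition (fac0 A G) (map0 A D) π0 x _ (h0 x)).trans ?_
    exact (congrArg (tilde.toOpen (mod01 A D) ⊤).hom (e.comm0 x)).trans (h01 _).symm
  have c1 : π1 ≫ trans1 A G D = π01 := by
    refine hom_ext_topMap_on (j01 A G) (span_secRes
      (j1 A G) (CommRingCat.ofHom (m.ι1 A)) (j01 A G) (fac1 A G) L) ?_
    rintro _ ⟨x, rfl⟩
    refine (topMap_comp_transition (fac1 A G) (map1 A D) π1 x _ (h1 x)).trans ?_
    exact (congrArg (tilde.toOpen (mod01 A D) ⊤).hom (e.comm1 x)).trans (h01 _).symm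
  let v : L ⟶ glue A G D := pullback.lift π0 π1 (c0.trans c1.symm)
  have hv : IsIso v := by
    refine isIso_of_app_on_cover v _ _ (opensRange_union A G) fun V hV => ?_
    rcases hV with h | h
    · have := isIso_glue_fst_app A G D V h
      have : IsIso (v.app V ≫ (pullback.fst (trans0 A G D) (trans1 A G D)).app V) := by
        have e2 : v ≫ pullback.fst _ _ = π0 := pullback.lift_fst _ _ _
        have := hi0 V h
        rw [← e2] at this
        exact this
      exact @IsIso.of_isIso_comp_right _ _ _ _ _ (v.app V)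
        ((pullback.fst (trans0 A G D) (trans1 A G D)).app V) (isIso_glue_fst_app A G D V h) this
    · have := isIso_glue_snd_app A G D V h
      have : IsIso (v.app V ≫ (pullback.snd (trans0 A G D) (trans1 A G D)).app V) := by
        have e2 : v ≫ pullback.snd _ _ = π1 := pullback.lift_snd _ _ _
        have := hi1 V h
        rw [← e2] at this
        exact this
      exact @IsIso.of_isIso_comp_right _ _ _ _ _ (v.app V)
        ((pullback.snd (trans0 A G D) (trans1 A G D)).app V) (isIso_glue_snd_app A G D V h) this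
  exact ⟨asIso v⟩

end GeoCharts

end Fermat.Agent.Jac
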