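import Fermat.Agent.Jac.DictAux.Affine
import Fermat.Agent.Jac.DictAux.Sections

/-!
# Morphisms into the direct image from an open affine

Semilinear maps of invertible modules give transition morphisms between pushforwards of
sheaves (`transition`).
-/

set_option autoImplicit false

universe u

open CategoryTheory AlgebraicGeometry Opposite TopologicalSpace

noncomputable section

namespace Fermat.Agent.Jac

variable {X Y : Scheme.{u}}

theorem app_map {L N : X.Modules} (ψ : L ⟶ N) {U V : X.Opens} (h : U ≤ V) (z : Γ(L, V)) :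
    ψ.app U (L.presheaf.map (homOfLE h).op z) = N.presheaf.map (homOfLE h).op (ψ.app V z) :=
  congr($(ψ.mapPresheaf.naturality (homOfLE h).op) z)

theorem map_map (L : X.Modules) {U V W : X.Opens} (h : U ≤ V) (h' : V ≤ W) (z : Γ(L, W)) :
    L.presheaf.map (homOfLE h).op (L.presheaf.map (homOfLE h').op z) =
      L.presheaf.map (homOfLE (h.trans h')).op z := by
  rw [← ConcreteCategory.comp_apply, ← L.presheaf.map_comp, ← op_comp, homOfLE_comp]

theorem map_self (L : X.Modules) {U : X.Opens} (h : U ≤ U) (z : Γ(L, U)) :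
    L.presheaf.map (homOfLE h).op z = z := by
  rw [show (homOfLE h).op = 𝟙 _ from rfl, L.presheaf.map_id, ConcreteCategory.id_apply]

theorem isIso_map_of_eq (L : X.Modules) {U V : X.Opens} (h : U ≤ V) (e : U = V) :
    IsIso (L.presheaf.map (homOfLE h).op) := by
  subst e
  rw [show (homOfLE h).op = 𝟙 _ from rfl, L.presheaf.map_id]
  infer_instance

theorem restrictAdjunction_homEquiv_app (f : Y ⟶ X) [IsOpenImmersion f] {L : X.Modules}
    {P : Y.Modules} (T : L.restrict f ⟶ P) (V : X.Opens) :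
    ((Scheme.Modules.restrictAdjunction f).homEquiv L P T).app V =
      L.presheaf.map (homOfLE (f.image_preimage_le V)).op ≫
        (L.restrictAppIso f (f ⁻¹ᵁ V)).inv ≫ T.app (f ⁻¹ᵁ V) := by
  rw [Adjunction.homEquiv_unit]
  rfl

section

variable (f : Y ⟶ X) [IsOpenImmersion f] {L : X.Modules} {P : Y.Modules}

/-- The transpose of a morphism into a direct image from an open subscheme. -/
def transpose (π : L ⟶ (Scheme.Modules.pushforward f).obj P) : L.restrict f ⟶ P :=
  ((Scheme.Modules.restrictAdjunction f).homEquiv L P).symm π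

theorem transpose_app (π : L ⟶ (Scheme.Modules.pushforward f).obj P) (W : Y.Opens)
    (y : Γ(L.restrict f, W)) :
    (transpose f π).app W y = P.presheaf.map (homOfLE (f.preimage_image_eq W).ge).op
      (π.app (f ''ᵁ W) ((L.restrictAppIso f W).hom y)) := by
  rw [transpose, Adjunction.homEquiv_counit]
  rfl

theorem transpose_injective {π π' : L ⟶ (Scheme.Modules.pushforward f).obj P}
    (h : transpose f π = transpose f π') : π = π' :=
  ((Scheme.Modules.restrictAdjunction f).homEquiv L P).symm.injective h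

theorem app_eq_of_transpose (π : L ⟶ (Scheme.Modules.pushforward f).obj P) (V : X.Opens) :
    π.app V = L.presheaf.map (homOfLE (f.image_preimage_le V)).op ≫
      (L.restrictAppIso f (f ⁻¹ᵁ V)).inv ≫ (transpose f π).app (f ⁻¹ᵁ V) := by
  conv_lhs => rw [← ((Scheme.Modules.restrictAdjunction f).homEquiv L P).apply_symm_apply π]
  exact restrictAdjunction_homEquiv_app f _ V

theorem isIso_app_of_isIso_transpose (π : L ⟶ (Scheme.Modules.pushforward f).obj P)
    [IsIso (transpose f π)] (V : X.Opens) (hV : V ≤ f.opensRange) : IsIso (π.app V) := by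
  rw [app_eq_of_transpose f π V]
  have := isIso_map_of_eq L (f.image_preimage_le V)
    ((f.image_preimage_eq_opensRange_inf V).trans (inf_eq_right.mpr hV))
  exact IsIso.comp_isIso' this (IsIso.comp_isIso' inferInstance
    (Scheme.Modules.Hom.isIso_iff_isIso_app.mp ‹IsIso (transpose f π)› _))

theorem isIso_transpose (π : L ⟶ (Scheme.Modules.pushforward f).obj P)
    (h : ∀ V ≤ f.opensRange, IsIso (π.app V)) : IsIso (transpose f π) := by
  rw [Scheme.Modules.Hom.isIso_iff_isIso_app]
  intro W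
  have := h (f ''ᵁ W) (by rintro _ ⟨y, -, rfl⟩; exact ⟨y, rfl⟩)
  have : (transpose f π).app W = (L.restrictAppIso f W).hom ≫ π.app (f ''ᵁ W) ≫
      P.presheaf.map (homOfLE (f.preimage_image_eq W).ge).op := by
    ext y
    exact transpose_app f π W y
  rw [this]
  exact IsIso.comp_isIso' inferInstance (IsIso.comp_isIso' (h _ (by
    rintro _ ⟨y, -, rfl⟩
    exact ⟨y, rfl⟩)) (isIso_map_of_eq P (f.preimage_image_eq W).ge (f.preimage_image_eq W).symm))

end

variable {R R' : CommRingCat.{u}} (j : Spec R ⟶ X) [IsOpenImmersion j]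

theorem top_le_preimage : (⊤ : (Spec R).Opens) ≤ j ⁻¹ᵁ (j ''ᵁ ⊤) := (j.preimage_image_eq ⊤).ge

/-- The map on global sections given by a morphism into a direct image. -/
def topMap {L : X.Modules} {P : (Spec R).Modules}
    (π : L ⟶ (Scheme.Modules.pushforward j).obj P) : secOn j L →ₗ[R] Γ(P, ⊤) :=
  ((moduleSpecΓFunctor (R := R)).map (transpose j π)).hom

theorem topMap_apply {L : X.Modules} {P : (Spec R).Modules}
    (π : L ⟶ (Scheme.Modules.pushforward j).obj P) (x : secOn j L) :
    topMap j π x = P.presheaf.map (homOfLE (top_le_preimage j)).op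
      (π.app (j ''ᵁ ⊤) ((L.restrictAppIso j ⊤).hom x)) :=
  transpose_app j π ⊤ x

/-- A morphism whose transpose is an isomorphism is bijective on the sections over the open
affine. -/
theorem bijective_topMap {L : X.Modules} {P : (Spec R).Modules}
    (π : L ⟶ (Scheme.Modules.pushforward j).obj P) [IsIso (transpose j π)] :
    Function.Bijective (topMap j π) :=
  (ConcreteCategory.isIso_iff_bijective ((transpose j π).app ⊤)).mp inferInstance

theorem hom_ext_topMap {L : X.Modules} {P : (Spec R).Modules}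
    [IsIso (L.restrict j).fromTildeΓ] {π π' : L ⟶ (Scheme.Modules.pushforward j).obj P}
    (h : topMap j π = topMap j π') : π = π' :=
  transpose_injective j (hom_ext_top fun x => LinearMap.congr_fun h x)

variable (j' : Spec R' ⟶ X) [IsOpenImmersion j'] (φ : R ⟶ R')

theorem image_le_of_fac (hj : Spec.map φ ≫ j = j') : j' ''ᵁ ⊤ ≤ j ''ᵁ ⊤ := by
  subst hj
  rintro y ⟨x, -, rfl⟩
  exact ⟨(Spec.map φ).base x, trivial, (Scheme.Hom.comp_apply _ _ x).symm⟩

/-- Restriction of sections between open affines. -/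
def secRes (hj : Spec.map φ ≫ j = j') (L : X.Modules) : secOn j L →ₛₗ[φ.hom] secOn j' L :=
  secMap (𝟙 X) j j' φ ((Category.comp_id j').trans hj.symm)
    ((Scheme.Modules.pushforwardId X).inv.app L)

theorem secRes_apply (hj : Spec.map φ ≫ j = j') (L : X.Modules) (x : secOn j L) :
    (L.restrictAppIso j' ⊤).hom (secRes j j' φ hj L x) =
      L.presheaf.map (homOfLE (image_le_of_fac j j' φ hj)).op ((L.restrictAppIso j ⊤).hom x) :=
  secMap_apply (𝟙 X) j j' φ ((Category.comp_id j').trans hj.symm)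
    ((Scheme.Modules.pushforwardId X).inv.app L) x

theorem secMap_secRes {R₁ R₁' : CommRingCat.{u}} (j₁ : Spec R₁ ⟶ Y) [IsOpenImmersion j₁]
    (j₁' : Spec R₁' ⟶ Y) [IsOpenImmersion j₁'] (φ₁ : R₁ ⟶ R₁') (hj₁ : Spec.map φ₁ ≫ j₁ = j₁')
    (hj : Spec.map φ ≫ j = j') (g : Y ⟶ X) (a : R ⟶ R₁) (ha : j₁ ≫ g = Spec.map a ≫ j)
    (a' : R' ⟶ R₁') (ha' : j₁' ≫ g = Spec.map a' ≫ j') {L : X.Modules} {N : Y.Modules}
    (ψ : L ⟶ (Scheme.Modules.pushforward g).obj N) (x : secOn j L) :
    secRes j₁ j₁' φ₁ hj₁ N (secMap g j j₁ a ha ψ x) =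
      secMap g j' j₁' a' ha' ψ (secRes j j' φ hj L x) := by
  apply (N.restrictAppIso j₁' ⊤).addCommGroupIsoToAddEquiv.injective
  refine (secRes_apply j₁ j₁' φ₁ hj₁ N _).trans ?_
  rw [secMap_apply]
  refine Eq.trans ?_ (secMap_apply g j' j₁' a' ha' ψ _).symm
  rw [secRes_apply, app_map]
  erw [map_map, map_map]

theorem pushforward_smul_top (P : (Spec R').Modules) (r : R)
    (y : Γ((Scheme.Modules.pushforward (Spec.map φ)).obj P, ⊤)) :
    r • y = φ.hom r • (show Γ(P, ⊤) from y) := by
  rw [Scheme.Modules.smul_Spec_def, Scheme.Modules.smul_Spec_def]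
  refine congrArg (fun s : Γ(Spec R', ⊤) => s • (show Γ(P, ⊤) from y)) ?_
  show (Spec.map φ).app ⊤ ((Spec R).presheaf.map (⊤ : (Spec R).Opens).leTop.op
    ((Scheme.ΓSpecIso R).inv r)) = _
  have h := congr($(Scheme.ΓSpecIso_inv_naturality φ) r)
  rw [show (⊤ : (Spec R).Opens).leTop.op = 𝟙 _ from rfl,
    show (⊤ : (Spec R').Opens).leTop.op = 𝟙 _ from rfl, (Spec R).presheaf.map_id,
    (Spec R').presheaf.map_id]
  exact h.symm

theorem topMap_restrict [IsOpenImmersion (Spec.map φ)] {L : (Spec R).Modules}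
    {P : (Spec R').Modules} (π : L ⟶ (Scheme.Modules.pushforward (Spec.map φ)).obj P)
    (z : Γ(L, ⊤)) :
    ∃ w : secOn (Spec.map φ) L, topMap (Spec.map φ) π w = (show Γ(P, ⊤) from π.app ⊤ z) := by
  refine ⟨(L.restrictAppIso (Spec.map φ) ⊤).inv
    (L.presheaf.map (homOfLE (le_top (a := Spec.map φ ''ᵁ ⊤))).op z), ?_⟩
  rw [app_eq_of_transpose (Spec.map φ) π ⊤]
  rfl

variable {j j' φ}

/-- The linear map behind the transition morphism. -/
def topPushforward {M : ModuleCat.{u} R} {M' : ModuleCat.{u} R'} (l : M →ₛₗ[φ.hom] M') :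
    M →ₗ[R] Γ((Scheme.Modules.pushforward (Spec.map φ)).obj (tilde M'), ⊤) where
  toFun x := (tilde.toOpen M' ⊤).hom (l x)
  map_add' x y := by rw [map_add, map_add]; rfl
  map_smul' r x :=
    ((congrArg (tilde.toOpen M' ⊤).hom (l.map_smulₛₗ r x)).trans
      ((tilde.toOpen M' ⊤).hom.map_smul (φ.hom r) (l x))).trans
      (pushforward_smul_top φ (tilde M') r ((tilde.toOpen M' ⊤).hom (l x))).symm

/-- The morphism of sheaves given by a semilinear map of modules. -/
def tildeSemi {M : ModuleCat.{u} R} {M' : ModuleCat.{u} R'} (l : M →ₛₗ[φ.hom] M') :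
    tilde M ⟶ (Scheme.Modules.pushforward (Spec.map φ)).obj (tilde M') :=
  homTilde (topPushforward l)

theorem tildeSemi_app {M : ModuleCat.{u} R} {M' : ModuleCat.{u} R'} (l : M →ₛₗ[φ.hom] M')
    (x : M) : (tildeSemi l).app ⊤ ((tilde.toOpen M ⊤).hom x) = (tilde.toOpen M' ⊤).hom (l x) :=
  homTilde_app _ x

theorem isIso_transpose_tildeSemi [IsOpenImmersion (Spec.map φ)] {M : ModuleCat.{u} R}
    [Module.Invertible R M] {M' : ModuleCat.{u} R'} [Module.Invertible R' M']
    (l : M →ₛₗ[φ.hom] M') (hl : Submodule.span R' (Set.range l) = ⊤) :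
    IsIso (transpose (Spec.map φ) (tildeSemi l)) := by
  have h1 := isInvertible_restrict (Spec.map φ) (isInvertible_tilde M)
  have : IsIso ((tilde M).restrict (Spec.map φ)).fromTildeΓ :=
    isIso_fromTilde_of_isInvertible _ h1
  have : IsIso (tilde M').fromTildeΓ := isIso_fromTilde_tilde M'
  refine isIso_of_bijective_top _ ?_
  have := invertible_sections _ h1
  have := invertible_sections _ (isInvertible_tilde M')
  refine Module.Invertible.bijective_of_surjective (f := topMap (Spec.map φ) (tildeSemi l)) ?_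
  rw [← LinearMap.range_eq_top, eq_top_iff]
  rintro y -
  obtain ⟨m', rfl⟩ : ∃ m', (tilde.isoTop M').toLinearEquiv m' = y :=
    (tilde.isoTop M').toLinearEquiv.surjective y
  have hm : m' ∈ Submodule.span R' (Set.range l) := hl ▸ Submodule.mem_top
  have hle : Submodule.span R' (Set.range l) ≤
      (LinearMap.range (topMap (Spec.map φ) (tildeSemi l))).comap
        (tilde.isoTop M').toLinearEquiv.toLinearMap := by
    rw [Submodule.span_le]
    rintro _ ⟨x, rfl⟩
    obtain ⟨w, hw⟩ := topMap_restrict φ (tildeSemi l) ((tilde.toOpen M ⊤).hom x)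
    exact ⟨w, hw.trans (tildeSemi_app l x)⟩
  exact hle hm

/-- The transition morphism between direct images. -/
def transition (hj : Spec.map φ ≫ j = j') {M : ModuleCat.{u} R} {M' : ModuleCat.{u} R'}
    (l : M →ₛₗ[φ.hom] M') :
    (Scheme.Modules.pushforward j).obj (tilde M) ⟶
      (Scheme.Modules.pushforward j').obj (tilde M') :=
  (Scheme.Modules.pushforward j).map (tildeSemi l) ≫
    (Scheme.Modules.pushforwardComp (Spec.map φ) j).hom.app (tilde M') ≫
    (Scheme.Modules.pushforwardCongr hj).hom.app (tilde M')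

omit [IsOpenImmersion j] in
theorem transition_app (hj : Spec.map φ ≫ j = j') {M : ModuleCat.{u} R} {M' : ModuleCat.{u} R'}
    (l : M →ₛₗ[φ.hom] M') (V : X.Opens) :
    (transition hj l).app V = (tildeSemi l).app (j ⁻¹ᵁ V) ≫
      (tilde M').presheaf.map (homOfLE
        (show j' ⁻¹ᵁ V ≤ Spec.map φ ⁻¹ᵁ (j ⁻¹ᵁ V) from le_of_eq (by subst hj; rfl))).op :=
  rfl

/-- The transition map is an isomorphism on opens whose part in the first affine lies in the
second. -/
theorem isIso_transition_app [IsOpenImmersion (Spec.map φ)] (hj : Spec.map φ ≫ j = j')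
    {M : ModuleCat.{u} R} [Module.Invertible R M] {M' : ModuleCat.{u} R'}
    [Module.Invertible R' M'] (l : M →ₛₗ[φ.hom] M')
    (hl : Submodule.span R' (Set.range l) = ⊤) (V : X.Opens)
    (hV : V ⊓ j.opensRange ≤ j'.opensRange) :
    IsIso ((transition hj l).app V) := by
  rw [transition_app]
  have := isIso_transpose_tildeSemi l hl
  have : IsIso ((tildeSemi l).app (j ⁻¹ᵁ V)) := by
    refine isIso_app_of_isIso_transpose (Spec.map φ) _ _ fun y hy => ?_
    obtain ⟨z, hz⟩ := hV ⟨hy, ⟨y, rfl⟩⟩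
    exact ⟨z, j.isOpenEmbedding.injective (by rw [← hz]; subst hj; rfl)⟩
  have := isIso_map_of_eq (tilde M')
    (show j' ⁻¹ᵁ V ≤ Spec.map φ ⁻¹ᵁ (j ⁻¹ᵁ V) from le_of_eq (by subst hj; rfl))
    (by subst hj; rfl)
  exact IsIso.comp_isIso' ‹IsIso ((tildeSemi l).app (j ⁻¹ᵁ V))› this

theorem topMap_comp_transition (hj : Spec.map φ ≫ j = j') {L : X.Modules}
    {M : ModuleCat.{u} R} {M' : ModuleCat.{u} R'} (l : M →ₛₗ[φ.hom] M')
    (π : L ⟶ (Scheme.Modules.pushforward j).obj (tilde M)) (x : secOn j L) (m : M)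
    (hm : topMap j π x = (tilde.toOpen M ⊤).hom m) :
    topMap j' (π ≫ transition hj l) (secRes j j' φ hj L x) = (tilde.toOpen M' ⊤).hom (l m) := by
  refine Eq.trans ?_ ((congrArg ((tildeSemi l).app ⊤) hm).trans (tildeSemi_app l m))
  refine (topMap_apply j' (π ≫ transition hj l) _).trans ?_
  refine Eq.trans ?_ (congrArg ((tildeSemi l).app ⊤) (topMap_apply j π x)).symm
  refine Eq.trans ?_ (app_map (tildeSemi l) (top_le_preimage j) _).symm
  refine (congrArg ((tilde M').presheaf.map _)
    ((congrArg ((π ≫ transition hj l).app (j' ''ᵁ ⊤)) (secRes_apply j j' φ hj L x)).trans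
      (app_map (π ≫ transition hj l) (image_le_of_fac j j' φ hj) _))).trans ?_
  erw [map_map, map_map]

end Fermat.Agent.Jac
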